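import Fermat.Agent.S58.FrobSmall.Lift
import Fermat.Agent.S58.TransferE

/-!
# S58: discharge of the input (FA) of `TransferE`

`frobAll W : TransferE.FrobAll W` — the Frobenius relation on prime-to-`ℓ` torsion of the curve
`EQ W` at every good prime `ℓ` of the integral model `W` (including `ℓ = 2, 3`), from
`frobenius_relation_all`.
-/

set_option autoImplicit false

namespace Fermat.Agent.S58.FrobSmall

open Fermat.Agent.S58.Curve

/-- Input (FA) of `TransferE`, for every integral Weierstrass model. -/
theorem frobAll (W : WeierstrassCurve ℤ) : Fermat.Agent.S58.TransferE.FrobAll W :=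
  fun _ _ hℓ hg hn _ hB σ hσ P hP =>
    frobenius_relation_all (EQ W) (isIntegralModelOf_EQ W) hℓ hg hn hB σ hσ P hP

end Fermat.Agent.S58.FrobSmall
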