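import Fermat.Agent.S58.FrobSmall.Line
import Fermat.Agent.S52.Tr.SpecFinal
import Fermat.Agent.S41.NonEis.Basics
import Fermat.Agent.S52.Glue.Short

/-!
# S58, brick (B2) FROB23: the Frobenius relation on `E(K)` from a generic identity

`K` algebraically closed over `ZMod ℓ`, `E` a Weierstrass curve over `ZMod ℓ`.

* `FrobRelAt ℓ K E a` : `φ² - a φ + ℓ = 0` on `E(K)`, `φ` the Frobenius (`Consumer.frobBC`).
* `frobRelAt_of_generic` : it suffices to check the identity at the points `(x, y)` with `x`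
  outside a finite set, on the curve written with explicit coefficients.
* `frobRelAt_of_rel`, `trace_eq_of_rel` : transport along a change of variables over `ZMod ℓ`.
* `trace_eq_of_count` : the trace of Frobenius from a count of affine solutions.
* `relImage`, `rel_relImage` : the explicit change of variables with `u = 1`.
-/

set_option autoImplicit false

namespace Fermat.Agent.S58.FrobSmall

open WeierstrassCurve WeierstrassCurve.Affine Fermat.Agent.S05.VarChange Fermat.Agent.S52.Tr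
open Polynomial

section Core

variable (ℓ : ℕ) [Fact ℓ.Prime] (K : Type) [Field K] [DecidableEq K] [Algebra (ZMod ℓ) K]

/-- `φ² - a φ + ℓ = 0` on `E(K)`, `φ` the Frobenius endomorphism of `E / ZMod ℓ`. -/
def FrobRelAt (E : WeierstrassCurve (ZMod ℓ)) (a : ℤ) : Prop :=
  ∀ P : (E.baseChange K).toAffine.Point,
    Consumer.frobBC ℓ K E (Consumer.frobBC ℓ K E P) - a • Consumer.frobBC ℓ K E P
      + (ℓ : ℤ) • P = 0

omit [DecidableEq K] in
theorem nonsingular_pow (E : WeierstrassCurve (ZMod ℓ)) {x y : K}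
    (h : (E.baseChange K).toAffine.Nonsingular x y) :
    (E.baseChange K).toAffine.Nonsingular (x ^ ℓ) (y ^ ℓ) := by
  have h2 := (WeierstrassCurve.Affine.baseChange_nonsingular E
    (FiniteField.frobeniusAlgHom (ZMod ℓ) K).injective x y).mpr h
  rw [FiniteField.coe_frobeniusAlgHom, ZMod.card] at h2
  exact h2

theorem frobBC_some (E : WeierstrassCurve (ZMod ℓ)) {x y : K}
    (h : (E.baseChange K).toAffine.Nonsingular x y) :
    Consumer.frobBC ℓ K E (Point.some x y h)
      = Point.some (x ^ ℓ) (y ^ ℓ) (nonsingular_pow ℓ K E h) := by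
  unfold Consumer.frobBC
  rw [WeierstrassCurve.Affine.Point.map_some]
  simp only [Point.some.injEq]
  rw [FiniteField.coe_frobeniusAlgHom, ZMod.card]
  exact ⟨rfl, rfl⟩

/-- The Frobenius relation follows from the generic identity on the curve with explicit
coefficients, checked at the points whose `x`-coordinate avoids a finite set. -/
theorem frobRelAt_of_generic [IsAlgClosed K] (E : WeierstrassCurve (ZMod ℓ)) (hΔ : E.Δ ≠ 0)
    (a lz : ℤ) (hlz : lz = (ℓ : ℤ))
    (c₁ c₂ c₃ c₄ c₆ : K) (hV : E.baseChange K = mkC c₁ c₂ c₃ c₄ c₆)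
    (Good : K → Prop) (hfin : {x : K | ¬ Good x}.Finite)
    (hgen : ∀ (x y : K) (h0 : (mkC c₁ c₂ c₃ c₄ c₆).Nonsingular x y)
      (h1 : (mkC c₁ c₂ c₃ c₄ c₆).Nonsingular (x ^ ℓ) (y ^ ℓ))
      (h2 : (mkC c₁ c₂ c₃ c₄ c₆).Nonsingular ((x ^ ℓ) ^ ℓ) ((y ^ ℓ) ^ ℓ)), Good x →
      Point.some _ _ h2 - a • Point.some _ _ h1 + lz • Point.some _ _ h0 = 0) :
    FrobRelAt ℓ K E a := by
  subst hlz
  have key : ∀ (V : WeierstrassCurve K), V = mkC c₁ c₂ c₃ c₄ c₆ → ∀ (x y : K)
      (h0 : V.toAffine.Nonsingular x y) (h1 : V.toAffine.Nonsingular (x ^ ℓ) (y ^ ℓ))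
      (h2 : V.toAffine.Nonsingular ((x ^ ℓ) ^ ℓ) ((y ^ ℓ) ^ ℓ)), Good x →
      Point.some _ _ h2 - a • Point.some _ _ h1 + (ℓ : ℤ) • Point.some _ _ h0 = 0 := by
    rintro V rfl
    exact hgen
  have hΔK : (E.baseChange K).Δ ≠ 0 := by
    have : (E.baseChange K).Δ = algebraMap (ZMod ℓ) K E.Δ :=
      WeierstrassCurve.map_Δ E (algebraMap (ZMod ℓ) K)
    rw [this]
    exact (_root_.map_ne_zero _).mpr hΔ
  have hinf : Infinite (E.baseChange K).toAffine.Point :=
    infinite_point_of_isAlgClosed _ hΔK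
  let Ψ : (E.baseChange K).toAffine.Point →+ (E.baseChange K).toAffine.Point :=
    (Consumer.frobBC ℓ K E).comp (Consumer.frobBC ℓ K E) - a • Consumer.frobBC ℓ K E
      + (ℓ : ℤ) • AddMonoidHom.id _
  have hΨ : ∀ P, Ψ P = Consumer.frobBC ℓ K E (Consumer.frobBC ℓ K E P)
      - a • Consumer.frobBC ℓ K E P + (ℓ : ℤ) • P := fun P => rfl
  have hsupp : {P | Ψ P ≠ 0}.Finite := by
    refine finite_of_xCoord_mem _ hfin _ ?_
    intro x y h hP
    by_contra hx
    apply hP
    have hg : Good x := by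
      by_contra hg
      exact hx hg
    rw [hΨ, frobBC_some ℓ K E h, frobBC_some ℓ K E (nonsingular_pow ℓ K E h)]
    exact key _ hV x y h _ _ hg
  intro P
  have := eq_zero_of_finite_support' Ψ hsupp P
  rw [hΨ] at this
  exact this

/-- Transport of the Frobenius relation along a change of variables over `ZMod ℓ`. -/
theorem frobRelAt_of_rel {E E' : WeierstrassCurve (ZMod ℓ)} {u r s t : ZMod ℓ}
    (H : Rel E.toAffine E'.toAffine u r s t) (a : ℤ) (h : FrobRelAt ℓ K E' a) :
    FrobRelAt ℓ K E a := by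
  intro P
  have HK := Fermat.Agent.S41.NonEis.Basics.rel_baseChange (K := K) H
  have hcomm : ∀ Q, HK.pointHom (Consumer.frobBC ℓ K E' Q)
      = Consumer.frobBC ℓ K E (HK.pointHom Q) := by
    intro Q
    change HK.pointMap (Consumer.frobBC ℓ K E' Q) = Consumer.frobBC ℓ K E (HK.pointMap Q)
    rcases Q with _ | ⟨x, y, hxy⟩
    · rfl
    · unfold Consumer.frobBC
      rw [Point.map_some, Rel.pointMap_some, Rel.pointMap_some, Point.map_some]
      simp only [map_add, map_mul, map_pow, AlgHom.commutes]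
  obtain ⟨Q, rfl⟩ := Fermat.Agent.S52.Glue.Rel.pointMap_surjective HK P
  have hQ := congrArg HK.pointHom (h Q)
  rw [map_add, map_sub, map_zsmul, map_zsmul, map_zero, hcomm, hcomm] at hQ
  exact hQ

end Core

section Count

/-- Zeros of a nonzero polynomial form a finite set. -/
theorem finite_eval_eq_zero {F : Type*} [Field F] (p : F[X]) (hp : p ≠ 0) :
    {x : F | p.eval x = 0}.Finite := by
  classical
  refine (p.roots.toFinset.finite_toSet).subset (fun x hx => ?_)
  simp only [Finset.mem_coe, Multiset.mem_toFinset, Polynomial.mem_roots hp, Polynomial.IsRoot]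
  exact hx

theorem two_eq_zero_of_algebra (K : Type*) [Field K] [Algebra (ZMod 2) K] : (2 : K) = 0 := by
  have h : (2 : K) = algebraMap (ZMod 2) K 2 := (map_ofNat _ 2).symm
  rw [h, show (2 : ZMod 2) = 0 from rfl, map_zero]

theorem three_eq_zero_of_algebra (K : Type*) [Field K] [Algebra (ZMod 3) K] : (3 : K) = 0 := by
  have h : (3 : K) = algebraMap (ZMod 3) K 3 := (map_ofNat _ 3).symm
  rw [h, show (3 : ZMod 3) = 0 from rfl, map_zero]

/-- The number of points of an elliptic curve over a finite field: one more than the number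
of affine solutions of the Weierstrass equation. -/
theorem card_point_eq_filter {F : Type} [Field F] [Fintype F] [DecidableEq F]
    (E : WeierstrassCurve F) (hΔ : E.Δ ≠ 0) :
    Nat.card E.toAffine.Point = 1 + (Finset.univ.filter (fun q : F × F =>
      q.2 ^ 2 + E.a₁ * q.1 * q.2 + E.a₃ * q.2
        = q.1 ^ 3 + E.a₂ * q.1 ^ 2 + E.a₄ * q.1 + E.a₆)).card := by
  have hns : ∀ x y : F, E.toAffine.Nonsingular x y ↔
      y ^ 2 + E.a₁ * x * y + E.a₃ * y = x ^ 3 + E.a₂ * x ^ 2 + E.a₄ * x + E.a₆ := by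
    intro x y
    rw [← Affine.equation_iff_nonsingular_of_Δ_ne_zero hΔ, Affine.equation_iff]
  let e : E.toAffine.Point ≃ Option {q : F × F // q.2 ^ 2 + E.a₁ * q.1 * q.2 + E.a₃ * q.2
        = q.1 ^ 3 + E.a₂ * q.1 ^ 2 + E.a₄ * q.1 + E.a₆} :=
    { toFun := fun P => match P with
        | .zero => none
        | .some x y h => some ⟨(x, y), (hns x y).1 h⟩
      invFun := fun o => match o with
        | none => .zero
        | some q => .some q.1.1 q.1.2 ((hns _ _).2 q.2)
      left_inv := by rintro (_ | _) <;> rfl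
      right_inv := by rintro (_ | _) <;> rfl }
  rw [Nat.card_congr e, Nat.card_eq_fintype_card, Fintype.card_option, Fintype.card_subtype,
    add_comm]

/-- The trace of Frobenius from the number of affine solutions. -/
theorem trace_eq_of_count {ℓ : ℕ} [Fact ℓ.Prime] (E : WeierstrassCurve (ZMod ℓ)) (hΔ : E.Δ ≠ 0)
    (n : ℕ) (hn : (Finset.univ.filter (fun q : ZMod ℓ × ZMod ℓ =>
      q.2 ^ 2 + E.a₁ * q.1 * q.2 + E.a₃ * q.2
        = q.1 ^ 3 + E.a₂ * q.1 ^ 2 + E.a₄ * q.1 + E.a₆)).card = n) :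
    E.traceOfFrobenius = (ℓ : ℤ) - n := by
  unfold WeierstrassCurve.traceOfFrobenius WeierstrassCurve.card
  rw [card_point_eq_filter E hΔ, hn, Nat.card_zmod]
  push_cast
  ring

/-- A change of variables preserves the trace of Frobenius. -/
theorem trace_eq_of_rel {F : Type*} [Field F] {E E' : WeierstrassCurve F} {u r s t : F}
    (H : Rel E.toAffine E'.toAffine u r s t) : E.traceOfFrobenius = E'.traceOfFrobenius := by
  have hc : Nat.card E'.toAffine.Point = Nat.card E.toAffine.Point :=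
    Nat.card_congr (Equiv.ofBijective H.pointMap
      ⟨H.pointMap_injective, Fermat.Agent.S52.Glue.Rel.pointMap_surjective H⟩)
  unfold WeierstrassCurve.traceOfFrobenius WeierstrassCurve.card
  rw [hc]

/-- The image of a curve under the change of variables `(1, r, s, t)`. -/
def relImage {F : Type*} [Field F] (a₁ a₂ a₃ a₄ a₆ r s t : F) : WeierstrassCurve F :=
  ⟨a₁ + 2 * s, a₂ - s * a₁ + 3 * r - s ^ 2, a₃ + r * a₁ + 2 * t,
    a₄ - s * a₃ + 2 * r * a₂ - (t + r * s) * a₁ + 3 * r ^ 2 - 2 * s * t,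
    a₆ + r * a₄ + r ^ 2 * a₂ + r ^ 3 - t * a₃ - t ^ 2 - r * t * a₁⟩

theorem rel_relImage {F : Type*} [Field F] (a₁ a₂ a₃ a₄ a₆ r s t : F) :
    Rel (mkC a₁ a₂ a₃ a₄ a₆) (relImage a₁ a₂ a₃ a₄ a₆ r s t).toAffine 1 r s t := by
  refine ⟨one_ne_zero, ?_, ?_, ?_, ?_, ?_⟩ <;> simp [relImage]

end Count

end Fermat.Agent.S58.FrobSmall
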