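import Fermat.Agent.S58.FrobSmall.Core

/-!
# S58, brick (B2) FROB23: generic Frobenius identities for the normal forms (generated)

For each normal form of an elliptic curve over `F_ℓ` (`ℓ = 2, 3`; in characteristic 3 only the
forms `y² = x³ + a₂ x² + a₆`, `a₂ a₆ ≠ 0`, which have no short model):

* `gen_*` : the identity `φ²P - a φP + ℓ P = 0` at a point `P = (x, y)` whose `x`-coordinate
  avoids the zeros of finitely many polynomials.  Every chord/tangent step is given with its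
  line and verified by `linear_combination` with explicit certificates (computed by a small
  computer algebra script over `F_ℓ(x)[y]`).
* `bad_*`, `frobRelAt_*`, `trace_*` : the excluded set is finite, hence the Frobenius relation on
  all of `E(K)`; the value of the trace of Frobenius.
-/

set_option autoImplicit false
set_option linter.unusedSimpArgs false
set_option linter.unusedVariables false

namespace Fermat.Agent.S58.FrobSmall

open WeierstrassCurve WeierstrassCurve.Affine Polynomial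

/-- Generic Frobenius relation for the curve `(1, 0, 0, 0, 1)` over `F_2` (trace `-1`). -/
theorem gen_c2a {K : Type*} [Field K] [DecidableEq K] (hch : (2 : K) = 0) (x y : K)
    (h0 : (mkC (1 : K) 0 0 0 1).Nonsingular x y)
    (h1 : (mkC (1 : K) 0 0 0 1).Nonsingular (x ^ 2) (y ^ 2))
    (h2 : (mkC (1 : K) 0 0 0 1).Nonsingular ((x ^ 2) ^ 2) ((y ^ 2) ^ 2))
    (hb1 : x ≠ 0)
    (hb2 : x^2 + 1 ≠ 0)
    : Point.some _ _ h2 - (-1 : ℤ) • Point.some _ _ h1 + (2 : ℤ) • Point.some _ _ h0 = 0 := by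
  have hE := equation_mk (1 : K) 0 0 0 1 h0
  obtain ⟨i1, hi1⟩ : ∃ i : K, (x) * i = 1 := ⟨_, mul_inv_cancel₀ hb1⟩
  obtain ⟨i2, hi2⟩ : ∃ i : K, (x^2 + 1) * i = 1 := ⟨_, mul_inv_cancel₀ hb2⟩
  have hy1 : 2 * y + 1 * x + 0 ≠ 0 := ne_zero_of_mul_eq_one (b := 1*i1) (by linear_combination (1) * hi1 + (y*i1) * hch)
  obtain ⟨h11, e11⟩ := dbl_some_of_line' 1 0 0 0 1 h0 hy1 ((x^2 + y)*i1) ((x^4 + 1)*i1^2) ((x^6 + x^2 + x + (x^4 + 1)*y)*i1^3)
    (by linear_combination (2*i1) * hE + (3*x^2 - y) * hi1 + (x^2*y*i1 + i1) * hch)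
    (by linear_combination (-i1^2) * hE + (-x^2*i1 - 2*x + y*i1) * hi1 + (-x^2*y*i1^2) * hch)
    (by linear_combination (x^3*i1 - y - i1^2) * hi1 + (x^6*i1^3 + x^4*y*i1^3 + x^2*i1^3 + x*i1^3 + y*i1^3) * hch)
  have hx2 : (x ^ 2) ^ 2 ≠ x ^ 2 := ne_of_sub_mul_eq_one (b := 1*i1^2*i2) (by linear_combination (x*i1 + 1) * hi1 + (x^2*i1^2) * hi2 + (-x^2*i1^2*i2) * hch)
  obtain ⟨h12, e12⟩ := add_some_of_line' 1 0 0 0 1 h2 h1 hx2 ((x^3 + x^2 + x + y)*i1) ((x^4 + 1)*i1^2) ((x^6 + x^5 + x^2 + (x^4 + 1)*y)*i1^3)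
    (by linear_combination (-x^4*i1 - x^3*i1 + x^2*y*i1 - x*y^2*i1) * hE + (y^4 - y^2) * hi1 + (x^5*y*i1 + x^4*y*i1 - x^4*i1 - x^3*i1) * hch)
    (by linear_combination (-i1^2) * hE + (-x^5*i1 - x^4 + x^2*i1 - x^2 + x*i1 + y*i1) * hi1 + (-x^5*i1^2 - x^4*i1^2 - x^3*y*i1^2 - 2*x^3*i1^2 - x^2*y*i1^2 - x^2*i1^2 - x*y*i1^2) * hch)
    (by linear_combination (x^6*i1^3 + x^5*i1^3 - x^4*y*i1^3 + x^3*y^2*i1^3 + x^3*i1^3) * hE + (x^8*i1^2 + x^7*i1^2 + x^7*i1 + x^6*i1^2 + x^6*i1 + x^5*y*i1^2 + x^5*i1 + x^4*y*i1 - x^4*i1^2 - x^2*y^4*i1^2 - x*y^4*i1 - y^4 - i1^2) * hi1 + (-x^7*y*i1^3 - x^6*y*i1^3 + 2*x^6*i1^3 + 2*x^5*i1^3 + x^3*i1^3 + x^2*i1^3 + x*i1^3 + y*i1^3) * hch)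
  obtain ⟨h13, e13⟩ := neg_some_of_eq' 1 0 0 0 1 h11 (-((x^6 + x^2 + x + (x^4 + 1)*y)*i1^3) - 1 * ((x^4 + 1)*i1^2) - 0) rfl
  have e14 : Point.some _ _ h12 = Point.some _ _ h13 := some_eq_some _ h12 h13
    (by ring)
    (by linear_combination (-x^4*i1^2 - i1^2) * hi1 + (x^6*i1^3 + x^5*i1^3 + x^4*y*i1^3 + x^2*i1^3 + x*i1^3 + y*i1^3) * hch)
  exact fin_2_m1 _ _ _ (by rw [e12, e11, e13, e14])

theorem bad_c2a (K : Type*) [Field K] : {x : K | ¬ (x ≠ 0 ∧ x^2 + 1 ≠ 0)}.Finite := by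
  have f1 : {x : K | x = 0}.Finite :=
    (finite_eval_eq_zero (X : K[X]) (Monic.ne_zero (by monicity!))).subset (fun x hx => by
      show Polynomial.eval x (X : K[X]) = 0
      simp only [eval_add, eval_mul, eval_pow, eval_X, eval_one, eval_ofNat]
      exact hx)
  have f2 : {x : K | x^2 + 1 = 0}.Finite :=
    (finite_eval_eq_zero (X^2 + 1 : K[X]) (Monic.ne_zero (by monicity!))).subset (fun x hx => by
      show Polynomial.eval x (X^2 + 1 : K[X]) = 0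
      simp only [eval_add, eval_mul, eval_pow, eval_X, eval_one, eval_ofNat]
      exact hx)
  refine (f1.union f2).subset (fun x hx => ?_)
  by_contra hcon
  exact hx ⟨fun h => hcon (Or.inl h), fun h => hcon (Or.inr h)⟩

theorem frobRelAt_c2a (K : Type) [Field K] [DecidableEq K] [Algebra (ZMod 2) K] [IsAlgClosed K] :
    FrobRelAt 2 K (mkC (1 : ZMod 2) 0 0 0 1) (-1) := by
  have hch : (2 : K) = 0 := two_eq_zero_of_algebra K
  exact frobRelAt_of_generic 2 K _ (by decide) (-1) 2 rfl 1 0 0 0 1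
    (by ext <;> simp [WeierstrassCurve.baseChange, map_ofNat])
    (fun x => x ≠ 0 ∧ x^2 + 1 ≠ 0) (bad_c2a K)
    (fun x y h0 h1 h2 hg => gen_c2a hch x y h0 h1 h2 hg.1 hg.2)

theorem trace_c2a : (mkC (1 : ZMod 2) 0 0 0 1).traceOfFrobenius = -1 := by
  rw [trace_eq_of_count _ (by decide) 3 (by decide)]
  norm_num

/-- Generic Frobenius relation for the curve `(1, 1, 0, 0, 1)` over `F_2` (trace `1`). -/
theorem gen_c2b {K : Type*} [Field K] [DecidableEq K] (hch : (2 : K) = 0) (x y : K)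
    (h0 : (mkC (1 : K) 1 0 0 1).Nonsingular x y)
    (h1 : (mkC (1 : K) 1 0 0 1).Nonsingular (x ^ 2) (y ^ 2))
    (h2 : (mkC (1 : K) 1 0 0 1).Nonsingular ((x ^ 2) ^ 2) ((y ^ 2) ^ 2))
    (hb1 : x ≠ 0)
    (hb2 : x^2 + 1 ≠ 0)
    : Point.some _ _ h2 - (1 : ℤ) • Point.some _ _ h1 + (2 : ℤ) • Point.some _ _ h0 = 0 := by
  have hE := equation_mk (1 : K) 1 0 0 1 h0
  obtain ⟨i1, hi1⟩ : ∃ i : K, (x) * i = 1 := ⟨_, mul_inv_cancel₀ hb1⟩
  obtain ⟨i2, hi2⟩ : ∃ i : K, (x^2 + 1) * i = 1 := ⟨_, mul_inv_cancel₀ hb2⟩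
  obtain ⟨h11, e11⟩ := neg_some_of_eq' 1 1 0 0 1 h1 (-(y ^ 2) - 1 * (x ^ 2) - 0) rfl
  have hx2 : (x ^ 2) ^ 2 ≠ x ^ 2 := ne_of_sub_mul_eq_one (b := 1*i1^2*i2) (by linear_combination (x*i1 + 1) * hi1 + (x^2*i1^2) * hi2 + (-x^2*i1^2*i2) * hch)
  obtain ⟨h12, e12⟩ := add_some_of_line' 1 1 0 0 1 h2 h11 hx2 ((x^3 + x^2 + x + y)*i1) ((x^4 + 1)*i1^2) ((x^6 + x^5 + x^2 + (x^4 + 1)*y)*i1^3)
    (by linear_combination (-x^4*i1 - 2*x^3*i1 + x^2*y*i1 - x*y^2*i1 - 2*x*i1) * hE + (x^2 + y^4 + y^2) * hi1 + (-x^6*i1 + x^5*y*i1 - x^5*i1 + 2*x^4*y*i1 - 2*x^4*i1 - 3*x^3*i1 + x^2*y*i1 - x*i1) * hch)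
    (by linear_combination (-i1^2) * hE + (-x^5*i1 - x^4 + x^2*i1 - x^2 + y*i1 - 1) * hi1 + (-x^5*i1^2 - x^4*i1^2 - x^3*y*i1^2 - 2*x^3*i1^2 - x^2*y*i1^2 - x^2*i1^2 - x*y*i1^2) * hch)
    (by linear_combination (x^6*i1^3 + 2*x^5*i1^3 - x^4*y*i1^3 + x^3*y^2*i1^3 + x^3*i1^3) * hE + (x^8*i1^2 + x^7*i1^2 + x^7*i1 + x^6*i1^2 + x^6*i1 + x^5*y*i1^2 + x^5*i1 + x^4*y*i1 - x^4*i1^2 - x^2*y^4*i1^2 - x*y^4*i1 - y^4 - i1^2) * hi1 + (x^8*i1^3 - x^7*y*i1^3 + x^7*i1^3 - 2*x^6*y*i1^3 + 2*x^6*i1^3 + 3*x^5*i1^3 + x^3*i1^3 + x^2*i1^3 + x*i1^3 + y*i1^3) * hch)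
  have hy3 : 2 * y + 1 * x + 0 ≠ 0 := ne_zero_of_mul_eq_one (b := 1*i1) (by linear_combination (1) * hi1 + (y*i1) * hch)
  obtain ⟨h13, e13⟩ := dbl_some_of_line' 1 1 0 0 1 h0 hy3 ((x^2 + y)*i1) ((x^4 + 1)*i1^2) ((x^6 + x^2 + x + (x^4 + 1)*y)*i1^3)
    (by linear_combination (2*i1) * hE + (3*x^2 + 2*x - y) * hi1 + (x^2*y*i1 + i1) * hch)
    (by linear_combination (-i1^2) * hE + (-x^2*i1 - x*i1 - 2*x + y*i1 - 1) * hi1 + (-x^2*y*i1^2) * hch)
    (by linear_combination (x^3*i1 - y - i1^2) * hi1 + (x^6*i1^3 + x^4*y*i1^3 + x^2*i1^3 + x*i1^3 + y*i1^3) * hch)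
  obtain ⟨h14, e14⟩ := neg_some_of_eq' 1 1 0 0 1 h13 (-((x^6 + x^2 + x + (x^4 + 1)*y)*i1^3) - 1 * ((x^4 + 1)*i1^2) - 0) rfl
  have e15 : Point.some _ _ h12 = Point.some _ _ h14 := some_eq_some _ h12 h14
    (by ring)
    (by linear_combination (-x^4*i1^2 - i1^2) * hi1 + (x^6*i1^3 + x^5*i1^3 + x^4*y*i1^3 + x^2*i1^3 + x*i1^3 + y*i1^3) * hch)
  exact fin_2_1 _ _ _ (by rw [e11, e12, e13, e14, e15])

theorem bad_c2b (K : Type*) [Field K] : {x : K | ¬ (x ≠ 0 ∧ x^2 + 1 ≠ 0)}.Finite := by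
  have f1 : {x : K | x = 0}.Finite :=
    (finite_eval_eq_zero (X : K[X]) (Monic.ne_zero (by monicity!))).subset (fun x hx => by
      show Polynomial.eval x (X : K[X]) = 0
      simp only [eval_add, eval_mul, eval_pow, eval_X, eval_one, eval_ofNat]
      exact hx)
  have f2 : {x : K | x^2 + 1 = 0}.Finite :=
    (finite_eval_eq_zero (X^2 + 1 : K[X]) (Monic.ne_zero (by monicity!))).subset (fun x hx => by
      show Polynomial.eval x (X^2 + 1 : K[X]) = 0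
      simp only [eval_add, eval_mul, eval_pow, eval_X, eval_one, eval_ofNat]
      exact hx)
  refine (f1.union f2).subset (fun x hx => ?_)
  by_contra hcon
  exact hx ⟨fun h => hcon (Or.inl h), fun h => hcon (Or.inr h)⟩

theorem frobRelAt_c2b (K : Type) [Field K] [DecidableEq K] [Algebra (ZMod 2) K] [IsAlgClosed K] :
    FrobRelAt 2 K (mkC (1 : ZMod 2) 1 0 0 1) (1) := by
  have hch : (2 : K) = 0 := two_eq_zero_of_algebra K
  exact frobRelAt_of_generic 2 K _ (by decide) (1) 2 rfl 1 1 0 0 1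
    (by ext <;> simp [WeierstrassCurve.baseChange, map_ofNat])
    (fun x => x ≠ 0 ∧ x^2 + 1 ≠ 0) (bad_c2b K)
    (fun x y h0 h1 h2 hg => gen_c2b hch x y h0 h1 h2 hg.1 hg.2)

theorem trace_c2b : (mkC (1 : ZMod 2) 1 0 0 1).traceOfFrobenius = 1 := by
  rw [trace_eq_of_count _ (by decide) 1 (by decide)]
  norm_num

/-- Generic Frobenius relation for the curve `(0, 0, 1, 0, 0)` over `F_2` (trace `0`). -/
theorem gen_c2c {K : Type*} [Field K] [DecidableEq K] (hch : (2 : K) = 0) (x y : K)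
    (h0 : (mkC (0 : K) 0 1 0 0).Nonsingular x y)
    (h1 : (mkC (0 : K) 0 1 0 0).Nonsingular (x ^ 2) (y ^ 2))
    (h2 : (mkC (0 : K) 0 1 0 0).Nonsingular ((x ^ 2) ^ 2) ((y ^ 2) ^ 2))
    : Point.some _ _ h2 - (0 : ℤ) • Point.some _ _ h1 + (2 : ℤ) • Point.some _ _ h0 = 0 := by
  have hE := equation_mk (0 : K) 0 1 0 0 h0
  have hy1 : 2 * y + 0 * x + 1 ≠ 0 := ne_zero_of_mul_eq_one (b := 1) (by linear_combination (y) * hch)
  obtain ⟨h11, e11⟩ := dbl_some_of_line' 0 0 1 0 0 h0 hy1 (x^2) (x^4) (x^6 + x^3 + 1 + y)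
    (by linear_combination (x^2*y - x^2) * hch)
    (by linear_combination (x) * hch)
    (by linear_combination (x^6 + y + 1) * hch)
  obtain ⟨h12, e12⟩ := neg_some_of_eq' 0 0 1 0 0 h2 (-((y ^ 2) ^ 2) - 0 * ((x ^ 2) ^ 2) - 1) rfl
  have e13 : Point.some _ _ h11 = Point.some _ _ h12 := some_eq_some _ h11 h12
    (by ring)
    (by linear_combination (x^3 + y^2 - y + 1) * hE + (x^6 - x^3*y + x^3 + 1) * hch)
  exact fin_2_0 _ _ _ (by rw [e11, e12, e13])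

theorem bad_c2c (K : Type*) [Field K] : {x : K | ¬ (True)}.Finite := by
  exact Set.finite_empty.subset (fun x hx => (hx trivial).elim)

theorem frobRelAt_c2c (K : Type) [Field K] [DecidableEq K] [Algebra (ZMod 2) K] [IsAlgClosed K] :
    FrobRelAt 2 K (mkC (0 : ZMod 2) 0 1 0 0) (0) := by
  have hch : (2 : K) = 0 := two_eq_zero_of_algebra K
  exact frobRelAt_of_generic 2 K _ (by decide) (0) 2 rfl 0 0 1 0 0
    (by ext <;> simp [WeierstrassCurve.baseChange, map_ofNat])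
    (fun x => True) (bad_c2c K)
    (fun x y h0 h1 h2 hg => gen_c2c hch x y h0 h1 h2 )

theorem trace_c2c : (mkC (0 : ZMod 2) 0 1 0 0).traceOfFrobenius = 0 := by
  rw [trace_eq_of_count _ (by decide) 2 (by decide)]
  norm_num

/-- Generic Frobenius relation for the curve `(0, 0, 1, 0, 1)` over `F_2` (trace `0`). -/
theorem gen_c2d {K : Type*} [Field K] [DecidableEq K] (hch : (2 : K) = 0) (x y : K)
    (h0 : (mkC (0 : K) 0 1 0 1).Nonsingular x y)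
    (h1 : (mkC (0 : K) 0 1 0 1).Nonsingular (x ^ 2) (y ^ 2))
    (h2 : (mkC (0 : K) 0 1 0 1).Nonsingular ((x ^ 2) ^ 2) ((y ^ 2) ^ 2))
    : Point.some _ _ h2 - (0 : ℤ) • Point.some _ _ h1 + (2 : ℤ) • Point.some _ _ h0 = 0 := by
  have hE := equation_mk (0 : K) 0 1 0 1 h0
  have hy1 : 2 * y + 0 * x + 1 ≠ 0 := ne_zero_of_mul_eq_one (b := 1) (by linear_combination (y) * hch)
  obtain ⟨h11, e11⟩ := dbl_some_of_line' 0 0 1 0 1 h0 hy1 (x^2) (x^4) (x^6 + x^3 + 1 + y)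
    (by linear_combination (x^2*y - x^2) * hch)
    (by linear_combination (x) * hch)
    (by linear_combination (x^6 + y + 1) * hch)
  obtain ⟨h12, e12⟩ := neg_some_of_eq' 0 0 1 0 1 h2 (-((y ^ 2) ^ 2) - 0 * ((x ^ 2) ^ 2) - 1) rfl
  have e13 : Point.some _ _ h11 = Point.some _ _ h12 := some_eq_some _ h11 h12
    (by ring)
    (by linear_combination (x^3 + y^2 - y + 2) * hE + (x^6 - x^3*y + 2*x^3 - y + 2) * hch)
  exact fin_2_0 _ _ _ (by rw [e11, e12, e13])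

theorem bad_c2d (K : Type*) [Field K] : {x : K | ¬ (True)}.Finite := by
  exact Set.finite_empty.subset (fun x hx => (hx trivial).elim)

theorem frobRelAt_c2d (K : Type) [Field K] [DecidableEq K] [Algebra (ZMod 2) K] [IsAlgClosed K] :
    FrobRelAt 2 K (mkC (0 : ZMod 2) 0 1 0 1) (0) := by
  have hch : (2 : K) = 0 := two_eq_zero_of_algebra K
  exact frobRelAt_of_generic 2 K _ (by decide) (0) 2 rfl 0 0 1 0 1
    (by ext <;> simp [WeierstrassCurve.baseChange, map_ofNat])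
    (fun x => True) (bad_c2d K)
    (fun x y h0 h1 h2 hg => gen_c2d hch x y h0 h1 h2 )

theorem trace_c2d : (mkC (0 : ZMod 2) 0 1 0 1).traceOfFrobenius = 0 := by
  rw [trace_eq_of_count _ (by decide) 2 (by decide)]
  norm_num

/-- Generic Frobenius relation for the curve `(0, 0, 1, 1, 0)` over `F_2` (trace `-2`). -/
theorem gen_c2e {K : Type*} [Field K] [DecidableEq K] (hch : (2 : K) = 0) (x y : K)
    (h0 : (mkC (0 : K) 0 1 1 0).Nonsingular x y)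
    (h1 : (mkC (0 : K) 0 1 1 0).Nonsingular (x ^ 2) (y ^ 2))
    (h2 : (mkC (0 : K) 0 1 1 0).Nonsingular ((x ^ 2) ^ 2) ((y ^ 2) ^ 2))
    (hb1 : x^2 + x ≠ 0)
    : Point.some _ _ h2 - (-2 : ℤ) • Point.some _ _ h1 + (2 : ℤ) • Point.some _ _ h0 = 0 := by
  have hE := equation_mk (0 : K) 0 1 1 0 h0
  obtain ⟨i1, hi1⟩ : ∃ i : K, (x^2 + x) * i = 1 := ⟨_, mul_inv_cancel₀ hb1⟩
  have hx1 : x ^ 2 ≠ x := ne_of_sub_mul_eq_one (b := 1*i1) (by linear_combination (1) * hi1 + (-x*i1) * hch)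
  obtain ⟨h11, e11⟩ := add_some_of_line' 0 0 1 1 0 h1 h0 hx1 (x + 1) (x + 1) (x + y)
    (by linear_combination (-1) * hE + (-x + y) * hch)
    (by ring)
    (by linear_combination (1) * hE + (2*x + 1) * hch)
  have hy2 : 2 * (x + y) + 0 * (x + 1) + 1 ≠ 0 := ne_zero_of_mul_eq_one (b := 1) (by linear_combination (x + y) * hch)
  obtain ⟨h12, e12⟩ := dbl_some_of_line' 0 0 1 1 0 h11 hy2 (x^2) (x^4) (x^6 + x^3 + x^2 + x + 1 + y)
    (by linear_combination (x^3 + x^2*y - x^2 - 3*x - 2) * hch)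
    (by linear_combination (x + 1) * hch)
    (by linear_combination (x^6 + x + y + 1) * hch)
  obtain ⟨h13, e13⟩ := neg_some_of_eq' 0 0 1 1 0 h2 (-((y ^ 2) ^ 2) - 0 * ((x ^ 2) ^ 2) - 1) rfl
  have e14 : Point.some _ _ h12 = Point.some _ _ h13 := some_eq_some _ h12 h13
    (by ring)
    (by linear_combination (x^3 + x + y^2 - y + 1) * hE + (x^6 + x^4 - x^3*y + x^3 + x^2 - x*y + x + 1) * hch)
  exact fin_2_m2 _ _ _ (by rw [e11, e12, e13, e14])

theorem bad_c2e (K : Type*) [Field K] : {x : K | ¬ (x^2 + x ≠ 0)}.Finite := by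
  have f1 : {x : K | x^2 + x = 0}.Finite :=
    (finite_eval_eq_zero (X^2 + X : K[X]) (Monic.ne_zero (by monicity!))).subset (fun x hx => by
      show Polynomial.eval x (X^2 + X : K[X]) = 0
      simp only [eval_add, eval_mul, eval_pow, eval_X, eval_one, eval_ofNat]
      exact hx)
  refine f1.subset (fun x hx => ?_)
  by_contra hcon
  exact hx (fun h => hcon h)

theorem frobRelAt_c2e (K : Type) [Field K] [DecidableEq K] [Algebra (ZMod 2) K] [IsAlgClosed K] :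
    FrobRelAt 2 K (mkC (0 : ZMod 2) 0 1 1 0) (-2) := by
  have hch : (2 : K) = 0 := two_eq_zero_of_algebra K
  exact frobRelAt_of_generic 2 K _ (by decide) (-2) 2 rfl 0 0 1 1 0
    (by ext <;> simp [WeierstrassCurve.baseChange, map_ofNat])
    (fun x => x^2 + x ≠ 0) (bad_c2e K)
    (fun x y h0 h1 h2 hg => gen_c2e hch x y h0 h1 h2 hg)

theorem trace_c2e : (mkC (0 : ZMod 2) 0 1 1 0).traceOfFrobenius = -2 := by
  rw [trace_eq_of_count _ (by decide) 4 (by decide)]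
  norm_num

/-- Generic Frobenius relation for the curve `(0, 0, 1, 1, 1)` over `F_2` (trace `2`). -/
theorem gen_c2f {K : Type*} [Field K] [DecidableEq K] (hch : (2 : K) = 0) (x y : K)
    (h0 : (mkC (0 : K) 0 1 1 1).Nonsingular x y)
    (h1 : (mkC (0 : K) 0 1 1 1).Nonsingular (x ^ 2) (y ^ 2))
    (h2 : (mkC (0 : K) 0 1 1 1).Nonsingular ((x ^ 2) ^ 2) ((y ^ 2) ^ 2))
    (hb1 : x^2 + x ≠ 0)
    : Point.some _ _ h2 - (2 : ℤ) • Point.some _ _ h1 + (2 : ℤ) • Point.some _ _ h0 = 0 := by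
  have hE := equation_mk (0 : K) 0 1 1 1 h0
  obtain ⟨i1, hi1⟩ : ∃ i : K, (x^2 + x) * i = 1 := ⟨_, mul_inv_cancel₀ hb1⟩
  obtain ⟨h11, e11⟩ := neg_some_of_eq' 0 0 1 1 1 h0 (-y - 0 * x - 1) rfl
  have hx2 : x ^ 2 ≠ x := ne_of_sub_mul_eq_one (b := 1*i1) (by linear_combination (1) * hi1 + (-x*i1) * hch)
  obtain ⟨h12, e12⟩ := add_some_of_line' 0 0 1 1 1 h1 h11 hx2 (x + 1) (x + 1) (x + 1 + y)
    (by linear_combination (-1) * hE + (-x - 1) * hch)
    (by ring)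
    (by linear_combination (1) * hE + (2*x + 2) * hch)
  have hy3 : 2 * (x + 1 + y) + 0 * (x + 1) + 1 ≠ 0 := ne_zero_of_mul_eq_one (b := 1) (by linear_combination (x + y + 1) * hch)
  obtain ⟨h13, e13⟩ := dbl_some_of_line' 0 0 1 1 1 h12 hy3 (x^2) (x^4) (x^6 + x^3 + x^2 + x + y)
    (by linear_combination (x^3 + x^2*y - 3*x - 2) * hch)
    (by linear_combination (x + 1) * hch)
    (by linear_combination (x^6 + x + y + 1) * hch)
  have e14 : Point.some _ _ h13 = Point.some _ _ h2 := some_eq_some _ h13 h2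
    (by ring)
    (by linear_combination (-x^3 - x - y^2 + y - 2) * hE + (-x^4 + x^3*y - x^3 + x*y - x + 2*y - 1) * hch)
  exact fin_2_2 _ _ _ (by rw [e11, e12, e13, e14])

theorem bad_c2f (K : Type*) [Field K] : {x : K | ¬ (x^2 + x ≠ 0)}.Finite := by
  have f1 : {x : K | x^2 + x = 0}.Finite :=
    (finite_eval_eq_zero (X^2 + X : K[X]) (Monic.ne_zero (by monicity!))).subset (fun x hx => by
      show Polynomial.eval x (X^2 + X : K[X]) = 0
      simp only [eval_add, eval_mul, eval_pow, eval_X, eval_one, eval_ofNat]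
      exact hx)
  refine f1.subset (fun x hx => ?_)
  by_contra hcon
  exact hx (fun h => hcon h)

theorem frobRelAt_c2f (K : Type) [Field K] [DecidableEq K] [Algebra (ZMod 2) K] [IsAlgClosed K] :
    FrobRelAt 2 K (mkC (0 : ZMod 2) 0 1 1 1) (2) := by
  have hch : (2 : K) = 0 := two_eq_zero_of_algebra K
  exact frobRelAt_of_generic 2 K _ (by decide) (2) 2 rfl 0 0 1 1 1
    (by ext <;> simp [WeierstrassCurve.baseChange, map_ofNat])
    (fun x => x^2 + x ≠ 0) (bad_c2f K)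
    (fun x y h0 h1 h2 hg => gen_c2f hch x y h0 h1 h2 hg)

theorem trace_c2f : (mkC (0 : ZMod 2) 0 1 1 1).traceOfFrobenius = 2 := by
  rw [trace_eq_of_count _ (by decide) 0 (by decide)]
  norm_num

end Fermat.Agent.S58.FrobSmall
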