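import Fermat.Agent.S58.FrobSmall.Core

/-!
# S58, brick (B2) FROB23: generic Frobenius identities for the normal forms (generated)

For each normal form of an elliptic curve over `F_ℓ` (`ℓ = 2, 3`; in characteristic 3 only the
forms `y² = x³ + a₂ x² + a₆`, `a₂ a₆ ≠ 0`, which have no short model):

* `gen_*` : the identity `φ²P - a φP + ℓ P = 0` at a point `P = (x, y)` whose `x`-coordinate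
  avoids the zeros of finitely many polynomials.  Every chord/tangent step is given with its
  line and verified by `linear_combination` with explicit certificates (computed by a small
  computer algebra script over `F_ℓ(x)[y]`).
* `bad_*`, `frobRelAt_*`, `trace_*` : the excluded set is finite, hence the Frobenius relation on
  all of `E(K)`; the value of the trace of Frobenius.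
-/

set_option autoImplicit false
set_option linter.unusedSimpArgs false
set_option linter.unusedVariables false

namespace Fermat.Agent.S58.FrobSmall

open WeierstrassCurve WeierstrassCurve.Affine Polynomial

/-- Generic Frobenius relation for the curve `(0, 1, 0, 0, 1)` over `F_3` (trace `-2`). -/
theorem gen_c3a {K : Type*} [Field K] [DecidableEq K] (hch : (3 : K) = 0) (x y : K)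
    (h0 : (mkC (0 : K) 1 0 0 1).Nonsingular x y)
    (h1 : (mkC (0 : K) 1 0 0 1).Nonsingular (x ^ 3) (y ^ 3))
    (h2 : (mkC (0 : K) 1 0 0 1).Nonsingular ((x ^ 3) ^ 3) ((y ^ 3) ^ 3))
    (hb1 : x + 2 ≠ 0)
    (hb2 : x^2 + x ≠ 0)
    (hb3 : x^2 + 1 ≠ 0)
    (hb4 : x^2 + x + 2 ≠ 0)
    (hb5 : x^2 + 2*x + 2 ≠ 0)
    : Point.some _ _ h2 - (-2 : ℤ) • Point.some _ _ h1 + (3 : ℤ) • Point.some _ _ h0 = 0 := by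
  have hE := equation_mk (0 : K) 1 0 0 1 h0
  obtain ⟨i1, hi1⟩ : ∃ i : K, (x + 2) * i = 1 := ⟨_, mul_inv_cancel₀ hb1⟩
  obtain ⟨i2, hi2⟩ : ∃ i : K, (x^2 + x) * i = 1 := ⟨_, mul_inv_cancel₀ hb2⟩
  obtain ⟨i3, hi3⟩ : ∃ i : K, (x^2 + 1) * i = 1 := ⟨_, mul_inv_cancel₀ hb3⟩
  obtain ⟨i4, hi4⟩ : ∃ i : K, (x^2 + x + 2) * i = 1 := ⟨_, mul_inv_cancel₀ hb4⟩
  obtain ⟨i5, hi5⟩ : ∃ i : K, (x^2 + 2*x + 2) * i = 1 := ⟨_, mul_inv_cancel₀ hb5⟩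
  have hx1 : x ^ 3 ≠ x := ne_of_sub_mul_eq_one (b := 1*i1*i2) (by linear_combination (1) * hi1 + (x*i1 + 2*i1) * hi2 + (-x^2*i1*i2 - x*i1*i2) * hch)
  obtain ⟨h11, e11⟩ := add_some_of_line' 0 1 0 0 1 h1 h0 hx1 ((x*y)*i1) ((x^2 + 1)*i1) (((x^2 + x + 2)*y)*i1^2)
    (by linear_combination (-x*y*i1 - 2*y*i1) * hE + (y^3 - y) * hi1 + (-x^3*y*i1 - x^2*y*i1) * hch)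
    (by linear_combination (-x^2*i1^2) * hE + (-x^4*i1 - 2*x^3*i1 - x^3 - 2*x^2*i1 - 3*x*i1 - x - 3*i1 - 1) * hi1 + (x^4*i1^2 + 2*x^3*i1^2 + 2*x^2*i1^2 + 3*x*i1^2 + 2*i1^2) * hch)
    (by linear_combination (x^2*y*i1^2 + 4*x*y*i1^2 + 4*y*i1^2) * hE + (x^4*y*i1 - x*y^3*i1 - 2*y^3*i1 - y^3) * hi1 + (x^4*y*i1^2 + 3*x^3*y*i1^2 + 2*x^2*y*i1^2 + 2*x*y*i1^2 + 2*y*i1^2) * hch)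
  have hy2 : 2 * (((x^2 + x + 2)*y)*i1^2) + 0 * ((x^2 + 1)*i1) + 0 ≠ 0 := ne_zero_of_mul_eq_one (b := ((2*x + 1)*y)*i4*i5) (by linear_combination (4*x^3*i1^2*i4*i5 + 6*x^2*i1^2*i4*i5 + 10*x*i1^2*i4*i5 + 4*i1^2*i4*i5) * hE + (x*i1 + 2*i1 + 1) * hi1 + (x^2*i1^2 + 4*x*i1^2 + 4*i1^2) * hi4 + (x^4*i1^2*i4 + 5*x^3*i1^2*i4 + 10*x^2*i1^2*i4 + 12*x*i1^2*i4 + 8*i1^2*i4) * hi5 + (x^6*i1^2*i4*i5 + x^5*i1^2*i4*i5 - 2*x^4*i1^2*i4*i5 - 8*x^3*i1^2*i4*i5 - 14*x^2*i1^2*i4*i5 - 10*x*i1^2*i4*i5 - 4*i1^2*i4*i5) * hch)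
  obtain ⟨h12, e12⟩ := dbl_some_of_line' 0 1 0 0 1 h11 hy2 (((x^2 + 1)*y)*i4*i5) ((x^8 + x^6 + x^5 + 2*x^4 + 2*x^3 + x + 2)*i1*i4^2*i5) (((2*x^12 + x^11 + 2*x^10 + 2*x^8 + x^7 + x^6 + x^4 + 2*x^3 + x^2 + 2*x + 2)*y)*i1^2*i4^3*i5^2)
    (by linear_combination (2*x^4*i1^2*i4*i5 + 2*x^3*i1^2*i4*i5 + 6*x^2*i1^2*i4*i5 + 2*x*i1^2*i4*i5 + 4*i1^2*i4*i5) * hE + (2*x^2*i1 + 2*i1) * hi1 + (3*x^4*i1^2 + 2*x^3*i1^2 + 10*x^2*i1^2 + 2*x*i1^2 + 7*i1^2) * hi4 + (3*x^6*i1^2*i4 + 5*x^5*i1^2*i4 + 18*x^4*i1^2*i4 + 16*x^3*i1^2*i4 + 29*x^2*i1^2*i4 + 11*x*i1^2*i4 + 14*i1^2*i4) * hi5 + (-x^8*i1^2*i4*i5 - 3*x^7*i1^2*i4*i5 - 10*x^6*i1^2*i4*i5 - 18*x^5*i1^2*i4*i5 - 29*x^4*i1^2*i4*i5 - 31*x^3*i1^2*i4*i5 - 28*x^2*i1^2*i4*i5 - 16*x*i1^2*i4*i5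 - 8*i1^2*i4*i5) * hch)
    (by linear_combination (-x^5*i1*i4^2*i5^2 - 2*x^4*i1*i4^2*i5^2 - 2*x^3*i1*i4^2*i5^2 - 4*x^2*i1*i4^2*i5^2 - x*i1*i4^2*i5^2 - 2*i1*i4^2*i5^2) * hE + (x^4*y^2*i4^2*i5^2 + 2*x^2*y^2*i4^2*i5^2 + y^2*i4^2*i5^2 - 1) * hi1 + (-2*x^4*i1*i4 - 3*x^3*i1*i4 - 9*x^2*i1*i4 - 2*x^2*i1 - 6*x*i1*i4 - x*i1 - 8*i1*i4 - 4*i1) * hi4 + (-3*x^8*i1*i4^2*i5 - 9*x^7*i1*i4^2*i5 - 31*x^6*i1*i4^2*i5 - 2*x^6*i1*i4^2 - 64*x^5*i1*i4^2*i5 - 5*x^5*i1*i4^2 - 108*x^4*i1*i4^2*i5 - 16*x^4*i1*i4^2 - 128*x^3*i1*i4^2*i5 - 21*x^3*i1*i4^2 - 120*x^2*i1*i4^2*i5 - 32*x^2*i1*i4^2 - 73*x*i1*i4^2*i5 - 20*x*i1*i4^2 - 34*i1*i4^2*i5 - 16*i1*i4^2) * hi5 + (x^10*i1*i4^2*i5^2 + 5*x^9*i1*i4^2*i5^2 + 18*x^8*i1*i4^2*i5^2 + 47*x^7*i1*i4^2*i5^2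 + 98*x^6*i1*i4^2*i5^2 + 155*x^5*i1*i4^2*i5^2 + 195*x^4*i1*i4^2*i5^2 + 188*x^3*i1*i4^2*i5^2 + 138*x^2*i1*i4^2*i5^2 + 71*x*i1*i4^2*i5^2 + 22*i1*i4^2*i5^2) * hch)
    (by linear_combination (-x^10*y*i1*i4^3*i5^2 - 2*x^8*y*i1*i4^3*i5^2 - x^7*y*i1*i4^3*i5^2 - 3*x^6*y*i1*i4^3*i5^2 - 3*x^5*y*i1*i4^3*i5^2 - 2*x^4*y*i1*i4^3*i5^2 + x^4*y*i1*i4*i5 - 3*x^3*y*i1*i4^3*i5^2 - 2*x^2*y*i1*i4^3*i5^2 + 2*x^2*y*i1*i4*i5 - x*y*i1*i4^3*i5^2 - 2*y*i1*i4^3*i5^2 + y*i1*i4*i5) * hi1 + (x^7*y*i1^2*i4^2*i5 + 3*x^6*y*i1^2*i4^2*i5 - x^6*y*i1^2*i4^2 + 6*x^5*y*i1^2*i4^2*i5 - 3*x^5*y*i1^2*i4^2 + x^5*y*i1^2*i4*i5 + 10*x^4*y*i1^2*i4^2*i5 - 9*x^4*y*i1^2*i4^2 + 2*x^4*y*i1^2*i4*i5 - x^4*y*i1^2*i4 + 9*x^3*y*i1^2*i4^2*i5 - 13*x^3*y*i1^2*i4^2 + 2*x^3*y*i1^2*i4*i5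 - 2*x^3*y*i1^2*i4 + 11*x^2*y*i1^2*i4^2*i5 - 18*x^2*y*i1^2*i4^2 + 4*x^2*y*i1^2*i4*i5 - 5*x^2*y*i1^2*i4 - x^2*y*i1^2 + 4*x*y*i1^2*i4^2*i5 - 12*x*y*i1^2*i4^2 + x*y*i1^2*i4*i5 - 4*x*y*i1^2*i4 - x*y*i1^2 + 4*y*i1^2*i4^2*i5 - 8*y*i1^2*i4^2 + 2*y*i1^2*i4*i5 - 4*y*i1^2*i4 - 2*y*i1^2) * hi4 + (-x^10*y*i1^2*i4^3*i5 - 5*x^9*y*i1^2*i4^3*i5 - 20*x^8*y*i1^2*i4^3*i5 - x^8*y*i1^2*i4^3 - 53*x^7*y*i1^2*i4^3*i5 - 4*x^7*y*i1^2*i4^3 - 111*x^6*y*i1^2*i4^3*i5 - 14*x^6*y*i1^2*i4^3 - 179*x^5*y*i1^2*i4^3*i5 - 28*x^5*y*i1^2*i4^3 - 226*x^4*y*i1^2*i4^3*i5 - 49*x^4*y*i1^2*i4^3 - 223*x^3*y*i1^2*i4^3*i5 - 56*x^3*y*i1^2*i4^3 - 162*x^2*y*i1^2*i4^3*i5 - 56*x^2*y*i1^2*i4^3 - 84*x*y*i1^2*i4^3*i5 - 32*x*y*i1^2*i4^3 - 24*y*i1^2*i4^3*i5 - 16*y*i1^2*i4^3)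 * hi5 + (x^12*y*i1^2*i4^3*i5^2 + 3*x^11*y*i1^2*i4^3*i5^2 + 12*x^10*y*i1^2*i4^3*i5^2 + 35*x^9*y*i1^2*i4^3*i5^2 + 88*x^8*y*i1^2*i4^3*i5^2 + 171*x^7*y*i1^2*i4^3*i5^2 + 272*x^6*y*i1^2*i4^3*i5^2 + 347*x^5*y*i1^2*i4^3*i5^2 + 356*x^4*y*i1^2*i4^3*i5^2 + 288*x^3*y*i1^2*i4^3*i5^2 + 174*x^2*y*i1^2*i4^3*i5^2 + 74*x*y*i1^2*i4^3*i5^2 + 18*y*i1^2*i4^3*i5^2) * hch)
  have hx3 : (x ^ 3) ^ 3 ≠ x := ne_of_sub_mul_eq_one (b := 1*i1*i2*i3*i4*i5) (by linear_combination (1) * hi1 + (x*i1 + 2*i1) * hi2 + (x^3*i1*i2 + 3*x^2*i1*i2 + 2*x*i1*i2) * hi3 + (x^5*i1*i2*i3 + 3*x^4*i1*i2*i3 + 3*x^3*i1*i2*i3 + 3*x^2*i1*i2*i3 + 2*x*i1*i2*i3) * hi4 + (x^7*i1*i2*i3*i4 + 4*x^6*i1*i2*i3*i4 + 8*x^5*i1*i2*i3*i4 + 12*x^4*i1*i2*i3*i4 + 11*x^3*i1*i2*i3*i4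 + 8*x^2*i1*i2*i3*i4 + 4*x*i1*i2*i3*i4) * hi5 + (-2*x^8*i1*i2*i3*i4*i5 - 6*x^7*i1*i2*i3*i4*i5 - 12*x^6*i1*i2*i3*i4*i5 - 17*x^5*i1*i2*i3*i4*i5 - 18*x^4*i1*i2*i3*i4*i5 - 14*x^3*i1*i2*i3*i4*i5 - 8*x^2*i1*i2*i3*i4*i5 - 3*x*i1*i2*i3*i4*i5) * hch)
  obtain ⟨h13, e13⟩ := add_some_of_line' 0 1 0 0 1 h2 h0 hx3 (((x^8 + 2*x^6 + 2*x^5 + 2*x^3 + x)*y)*i1*i4*i5) ((x^8 + x^6 + x^5 + 2*x^4 + 2*x^3 + x + 2)*i1*i4^2*i5) (((x^12 + 2*x^11 + x^10 + x^8 + 2*x^7 + 2*x^6 + 2*x^4 + x^3 + 2*x^2 + x + 1)*y)*i1^2*i4^3*i5^2)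
    (by linear_combination (-x^14*y*i1*i4*i5 - 8*x^13*y*i1*i4*i5 - 30*x^12*y*i1*i4*i5 - x^11*y^3*i1*i4*i5 - 73*x^11*y*i1*i4*i5 - 7*x^10*y^3*i1*i4*i5 - 132*x^10*y*i1*i4*i5 - 23*x^9*y^3*i1*i4*i5 - 191*x^9*y*i1*i4*i5 - x^8*y^5*i1*i4*i5 - 49*x^8*y^3*i1*i4*i5 - 234*x^8*y*i1*i4*i5 - 6*x^7*y^5*i1*i4*i5 - 76*x^7*y^3*i1*i4*i5 - 250*x^7*y*i1*i4*i5 - 17*x^6*y^5*i1*i4*i5 - 92*x^6*y^3*i1*i4*i5 - 233*x^6*y*i1*i4*i5 - x^5*y^7*i1*i4*i5 - 31*x^5*y^5*i1*i4*i5 - 93*x^5*y^3*i1*i4*i5 - 187*x^5*y*i1*i4*i5 - 5*x^4*y^7*i1*i4*i5 - 39*x^4*y^5*i1*i4*i5 - 81*x^4*y^3*i1*i4*i5 - 131*x^4*y*i1*i4*i5 - 12*x^3*y^7*i1*i4*i5 - 36*x^3*y^5*i1*i4*i5 - 60*x^3*y^3*i1*i4*i5 - 84*x^3*y*i1*i4*i5 - 18*x^2*y^7*i1*i4*i5 - 26*x^2*y^5*i1*i4*i5 - 34*x^2*y^3*i1*i4*i5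 - 42*x^2*y*i1*i4*i5 - 16*x*y^7*i1*i4*i5 - 16*x*y^5*i1*i4*i5 - 16*x*y^3*i1*i4*i5 - 16*x*y*i1*i4*i5 - 8*y^7*i1*i4*i5 - 8*y^5*i1*i4*i5 - 8*y^3*i1*i4*i5 - 8*y*i1*i4*i5) * hE + (y^9 - y) * hi1 + (x*y^9*i1 - x*y*i1 + 2*y^9*i1 - 2*y*i1) * hi4 + (x^3*y^9*i1*i4 - x^3*y*i1*i4 + 3*x^2*y^9*i1*i4 - 3*x^2*y*i1*i4 + 4*x*y^9*i1*i4 - 4*x*y*i1*i4 + 4*y^9*i1*i4 - 4*y*i1*i4) * hi5 + (-3*x^16*y*i1*i4*i5 - 12*x^15*y*i1*i4*i5 - 34*x^14*y*i1*i4*i5 - 71*x^13*y*i1*i4*i5 - 117*x^12*y*i1*i4*i5 - 166*x^11*y*i1*i4*i5 - 205*x^10*y*i1*i4*i5 - 225*x^9*y*i1*i4*i5 - 218*x^8*y*i1*i4*i5 - 190*x^7*y*i1*i4*i5 - 150*x^6*y*i1*i4*i5 - 104*x^5*y*i1*i4*i5 - 62*x^4*y*i1*i4*i5 - 32*x^3*y*i1*i4*i5 - 11*x^2*y*i1*i4*i5) * hch)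
    (by linear_combination (-x^16*i1^2*i4^2*i5^2 - 4*x^14*i1^2*i4^2*i5^2 - 4*x^13*i1^2*i4^2*i5^2 - 4*x^12*i1^2*i4^2*i5^2 - 12*x^11*i1^2*i4^2*i5^2 - 4*x^10*i1^2*i4^2*i5^2 - 10*x^9*i1^2*i4^2*i5^2 - 8*x^8*i1^2*i4^2*i5^2 - 4*x^7*i1^2*i4^2*i5^2 - 8*x^6*i1^2*i4^2*i5^2 - 4*x^4*i1^2*i4^2*i5^2 - x^2*i1^2*i4^2*i5^2) * hE + (-x^10*i1 - 2*x^9*i1 - x^9 - x^8*i1*i4^2*i5 - x^6*i1*i4^2*i5 - x^5*i1*i4^2*i5 - 2*x^4*i1*i4^2*i5 - 2*x^3*i1*i4^2*i5 - x^2*i1 - x*i1*i4^2*i5 - 3*x*i1 - x - 2*i1*i4^2*i5 - 2*i1 - 1) * hi1 + (-x^13*i1^2*i4 - 5*x^12*i1^2*i4 - 10*x^11*i1^2*i4 - x^11*i1^2 - 12*x^10*i1^2*i4 - 4*x^10*i1^2 - 8*x^9*i1^2*i4 - 4*x^9*i1^2 - x^5*i1^2*i4 - 6*x^4*i1^2*i4 - 15*x^3*i1^2*i4 - x^3*i1^2 - 22*x^2*i1^2*i4 - 5*x^2*i1^2 -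 20*x*i1^2*i4 - 8*x*i1^2 - 8*i1^2*i4 - 4*i1^2) * hi4 + (-x^17*i1^2*i4^2*i5 - 8*x^16*i1^2*i4^2*i5 - 31*x^15*i1^2*i4^2*i5 - x^15*i1^2*i4^2 - 78*x^14*i1^2*i4^2*i5 - 6*x^14*i1^2*i4^2 - 138*x^13*i1^2*i4^2*i5 - 17*x^13*i1^2*i4^2 - 176*x^12*i1^2*i4^2*i5 - 32*x^12*i1^2*i4^2 - 160*x^11*i1^2*i4^2*i5 - 40*x^11*i1^2*i4^2 - 96*x^10*i1^2*i4^2*i5 - 32*x^10*i1^2*i4^2 - 34*x^9*i1^2*i4^2*i5 - 16*x^9*i1^2*i4^2 - 11*x^8*i1^2*i4^2*i5 - 40*x^7*i1^2*i4^2*i5 - x^7*i1^2*i4^2 - 112*x^6*i1^2*i4^2*i5 - 7*x^6*i1^2*i4^2 - 220*x^5*i1^2*i4^2*i5 - 23*x^5*i1^2*i4^2 - 320*x^4*i1^2*i4^2*i5 - 49*x^4*i1^2*i4^2 - 340*x^3*i1^2*i4^2*i5 - 72*x^3*i1^2*i4^2 - 257*x^2*i1^2*i4^2*i5 - 72*x^2*i1^2*i4^2 - 132*x*i1^2*i4^2*i5 - 48*x*i1^2*i4^2 - 36*i1^2*i4^2*i5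 - 16*i1^2*i4^2) * hi5 + (3*x^18*i1^2*i4^2*i5^2 + 15*x^17*i1^2*i4^2*i5^2 + 49*x^16*i1^2*i4^2*i5^2 + 116*x^15*i1^2*i4^2*i5^2 + 196*x^14*i1^2*i4^2*i5^2 + 256*x^13*i1^2*i4^2*i5^2 + 250*x^12*i1^2*i4^2*i5^2 + 172*x^11*i1^2*i4^2*i5^2 + 85*x^10*i1^2*i4^2*i5^2 + 36*x^9*i1^2*i4^2*i5^2 + 66*x^8*i1^2*i4^2*i5^2 + 172*x^7*i1^2*i4^2*i5^2 + 324*x^6*i1^2*i4^2*i5^2 + 473*x^5*i1^2*i4^2*i5^2 + 524*x^4*i1^2*i4^2*i5^2 + 442*x^3*i1^2*i4^2*i5^2 + 271*x^2*i1^2*i4^2*i5^2 + 112*x*i1^2*i4^2*i5^2 + 24*i1^2*i4^2*i5^2) * hch)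
    (by linear_combination (x^21*y*i1^2*i4^3*i5^2 + 14*x^20*y*i1^2*i4^3*i5^2 + 97*x^19*y*i1^2*i4^3*i5^2 + x^18*y^3*i1^2*i4^3*i5^2 + 445*x^18*y*i1^2*i4^3*i5^2 + 13*x^17*y^3*i1^2*i4^3*i5^2 + 1518*x^17*y*i1^2*i4^3*i5^2 + 84*x^16*y^3*i1^2*i4^3*i5^2 + 4094*x^16*y*i1^2*i4^3*i5^2 + x^15*y^5*i1^2*i4^3*i5^2 + 360*x^15*y^3*i1^2*i4^3*i5^2 + 9068*x^15*y*i1^2*i4^3*i5^2 + 12*x^14*y^5*i1^2*i4^3*i5^2 + 1145*x^14*y^3*i1^2*i4^3*i5^2 + 16933*x^14*y*i1^2*i4^3*i5^2 + 72*x^13*y^5*i1^2*i4^3*i5^2 + 2865*x^13*y^3*i1^2*i4^3*i5^2 + 27183*x^13*y*i1^2*i4^3*i5^2 + x^12*y^7*i1^2*i4^3*i5^2 + 287*x^12*y^5*i1^2*i4^3*i5^2 + 5843*x^12*y^3*i1^2*i4^3*i5^2 + 38093*x^12*y*i1^2*i4^3*i5^2 + 11*x^11*y^7*i1^2*i4^3*i5^2 + 846*x^11*y^5*i1^2*i4^3*i5^2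 + 9945*x^11*y^3*i1^2*i4^3*i5^2 + 47160*x^11*y*i1^2*i4^3*i5^2 + 61*x^10*y^7*i1^2*i4^3*i5^2 + 1947*x^10*y^5*i1^2*i4^3*i5^2 + 14373*x^10*y^3*i1^2*i4^3*i5^2 + 52035*x^10*y*i1^2*i4^3*i5^2 + 225*x^9*y^7*i1^2*i4^3*i5^2 + 3609*x^9*y^5*i1^2*i4^3*i5^2 + 17877*x^9*y^3*i1^2*i4^3*i5^2 + 51445*x^9*y*i1^2*i4^3*i5^2 + 610*x^8*y^7*i1^2*i4^3*i5^2 + 5490*x^8*y^5*i1^2*i4^3*i5^2 + 19338*x^8*y^3*i1^2*i4^3*i5^2 + 45674*x^8*y*i1^2*i4^3*i5^2 + 1276*x^7*y^7*i1^2*i4^3*i5^2 + 6936*x^7*y^5*i1^2*i4^3*i5^2 + 18324*x^7*y^3*i1^2*i4^3*i5^2 + 36400*x^7*y*i1^2*i4^3*i5^2 + 2108*x^6*y^7*i1^2*i4^3*i5^2 + 7332*x^6*y^5*i1^2*i4^3*i5^2 + 15244*x^6*y^3*i1^2*i4^3*i5^2 + 25972*x^6*y*i1^2*i4^3*i5^2 + 2772*x^5*y^7*i1^2*i4^3*i5^2 + 6516*x^5*y^5*i1^2*i4^3*i5^2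 + 11092*x^5*y^3*i1^2*i4^3*i5^2 + 16500*x^5*y*i1^2*i4^3*i5^2 + 2888*x^4*y^7*i1^2*i4^3*i5^2 + 4872*x^4*y^5*i1^2*i4^3*i5^2 + 6984*x^4*y^3*i1^2*i4^3*i5^2 + 9224*x^4*y*i1^2*i4^3*i5^2 + 2336*x^3*y^7*i1^2*i4^3*i5^2 + 3040*x^3*y^5*i1^2*i4^3*i5^2 + 3744*x^3*y^3*i1^2*i4^3*i5^2 + 4448*x^3*y*i1^2*i4^3*i5^2 + 1408*x^2*y^7*i1^2*i4^3*i5^2 + 1536*x^2*y^5*i1^2*i4^3*i5^2 + 1664*x^2*y^3*i1^2*i4^3*i5^2 + 1792*x^2*y*i1^2*i4^3*i5^2 + 576*x*y^7*i1^2*i4^3*i5^2 + 576*x*y^5*i1^2*i4^3*i5^2 + 576*x*y^3*i1^2*i4^3*i5^2 + 576*x*y*i1^2*i4^3*i5^2 + 128*y^7*i1^2*i4^3*i5^2 + 128*y^5*i1^2*i4^3*i5^2 + 128*y^3*i1^2*i4^3*i5^2 + 128*y*i1^2*i4^3*i5^2) * hE + (x^17*y*i1*i4*i5 + 2*x^15*y*i1*i4*i5 + 2*x^14*y*i1*i4*i5 + 2*x^12*y*i1*i4*i5 + x^10*y*i1*i4*i5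 - x*y^9*i1 - 2*y^9*i1 - y^9) * hi1 + (x^20*y*i1^2*i4^2*i5 + 3*x^19*y*i1^2*i4^2*i5 + 6*x^18*y*i1^2*i4^2*i5 + x^18*y*i1^2*i4*i5 + 12*x^17*y*i1^2*i4^2*i5 + 2*x^17*y*i1^2*i4*i5 + 14*x^16*y*i1^2*i4^2*i5 + 2*x^16*y*i1^2*i4*i5 + 18*x^15*y*i1^2*i4^2*i5 + 6*x^15*y*i1^2*i4*i5 + 14*x^14*y*i1^2*i4^2*i5 + 4*x^14*y*i1^2*i4*i5 + 9*x^13*y*i1^2*i4^2*i5 + 2*x^13*y*i1^2*i4*i5 + 11*x^12*y*i1^2*i4^2*i5 + 4*x^12*y*i1^2*i4*i5 + 4*x^11*y*i1^2*i4^2*i5 + x^11*y*i1^2*i4*i5 + 4*x^10*y*i1^2*i4^2*i5 + 2*x^10*y*i1^2*i4*i5 - x^6*y^9*i1^2*i4^2 - 6*x^5*y^9*i1^2*i4^2 - 17*x^4*y^9*i1^2*i4^2 - x^4*y^9*i1^2*i4 - 32*x^3*y^9*i1^2*i4^2 - 5*x^3*y^9*i1^2*i4 - 40*x^2*y^9*i1^2*i4^2 - 10*x^2*y^9*i1^2*i4 - x^2*y^9*i1^2 - 32*x*y^9*i1^2*i4^2 - 12*x*y^9*i1^2*i4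 - 4*x*y^9*i1^2 - 16*y^9*i1^2*i4^2 - 8*y^9*i1^2*i4 - 4*y^9*i1^2) * hi4 + (x^22*y*i1^2*i4^3*i5 + 4*x^21*y*i1^2*i4^3*i5 + 11*x^20*y*i1^2*i4^3*i5 + 24*x^19*y*i1^2*i4^3*i5 + 38*x^18*y*i1^2*i4^3*i5 + 56*x^17*y*i1^2*i4^3*i5 + 60*x^16*y*i1^2*i4^3*i5 + 59*x^15*y*i1^2*i4^3*i5 + 48*x^14*y*i1^2*i4^3*i5 + 33*x^13*y*i1^2*i4^3*i5 + 30*x^12*y*i1^2*i4^3*i5 + 12*x^11*y*i1^2*i4^3*i5 - x^10*y^9*i1^2*i4^3*i5 + 8*x^10*y*i1^2*i4^3*i5 - 9*x^9*y^9*i1^2*i4^3*i5 - 41*x^8*y^9*i1^2*i4^3*i5 - x^8*y^9*i1^2*i4^3 - 125*x^7*y^9*i1^2*i4^3*i5 - 7*x^7*y^9*i1^2*i4^3 - 278*x^6*y^9*i1^2*i4^3*i5 - 25*x^6*y^9*i1^2*i4^3 - 470*x^5*y^9*i1^2*i4^3*i5 - 61*x^5*y^9*i1^2*i4^3 - 612*x^4*y^9*i1^2*i4^3*i5 - 106*x^4*y^9*i1^2*i4^3 - 608*x^3*y^9*i1^2*i4^3*i5 -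 136*x^3*y^9*i1^2*i4^3 - 448*x^2*y^9*i1^2*i4^3*i5 - 128*x^2*y^9*i1^2*i4^3 - 224*x*y^9*i1^2*i4^3*i5 - 80*x*y^9*i1^2*i4^3 - 64*y^9*i1^2*i4^3*i5 - 32*y^9*i1^2*i4^3) * hi5 + (3*x^23*y*i1^2*i4^3*i5^2 + 30*x^22*y*i1^2*i4^3*i5^2 + 163*x^21*y*i1^2*i4^3*i5^2 + 623*x^20*y*i1^2*i4^3*i5^2 + 1843*x^19*y*i1^2*i4^3*i5^2 + 4453*x^18*y*i1^2*i4^3*i5^2 + 9076*x^17*y*i1^2*i4^3*i5^2 + 15975*x^16*y*i1^2*i4^3*i5^2 + 24699*x^15*y*i1^2*i4^3*i5^2 + 33999*x^14*y*i1^2*i4^3*i5^2 + 42081*x^13*y*i1^2*i4^3*i5^2 + 47162*x^12*y*i1^2*i4^3*i5^2 + 48083*x^11*y*i1^2*i4^3*i5^2 + 44700*x^10*y*i1^2*i4^3*i5^2 + 37943*x^9*y*i1^2*i4^3*i5^2 + 29385*x^8*y*i1^2*i4^3*i5^2 + 20711*x^7*y*i1^2*i4^3*i5^2 + 13219*x^6*y*i1^2*i4^3*i5^2 + 7582*x^5*y*i1^2*i4^3*i5^2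 + 3866*x^4*y*i1^2*i4^3*i5^2 + 1719*x^3*y*i1^2*i4^3*i5^2 + 641*x^2*y*i1^2*i4^3*i5^2 + 193*x*y*i1^2*i4^3*i5^2 + 43*y*i1^2*i4^3*i5^2) * hch)
  obtain ⟨h14, e14⟩ := neg_some_of_eq' 0 1 0 0 1 h12 (-(((2*x^12 + x^11 + 2*x^10 + 2*x^8 + x^7 + x^6 + x^4 + 2*x^3 + x^2 + 2*x + 2)*y)*i1^2*i4^3*i5^2) - 0 * ((x^8 + x^6 + x^5 + 2*x^4 + 2*x^3 + x + 2)*i1*i4^2*i5) - 0) rfl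
  have e15 : Point.some _ _ h13 = Point.some _ _ h14 := some_eq_some _ h13 h14
    (by ring)
    (by linear_combination (x^12*y*i1^2*i4^3*i5^2 + x^11*y*i1^2*i4^3*i5^2 + x^10*y*i1^2*i4^3*i5^2 + x^8*y*i1^2*i4^3*i5^2 + x^7*y*i1^2*i4^3*i5^2 + x^6*y*i1^2*i4^3*i5^2 + x^4*y*i1^2*i4^3*i5^2 + x^3*y*i1^2*i4^3*i5^2 + x^2*y*i1^2*i4^3*i5^2 + x*y*i1^2*i4^3*i5^2 + y*i1^2*i4^3*i5^2) * hch)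
  exact fin_3_m2 _ _ _ (by rw [e13, e11, e12, e14, e15])

theorem bad_c3a (K : Type*) [Field K] : {x : K | ¬ (x + 2 ≠ 0 ∧ x^2 + x ≠ 0 ∧ x^2 + 1 ≠ 0 ∧ x^2 + x + 2 ≠ 0 ∧ x^2 + 2*x + 2 ≠ 0)}.Finite := by
  have f1 : {x : K | x + 2 = 0}.Finite :=
    (finite_eval_eq_zero (X + 2 : K[X]) (Monic.ne_zero (by monicity!))).subset (fun x hx => by
      show Polynomial.eval x (X + 2 : K[X]) = 0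
      simp only [eval_add, eval_mul, eval_pow, eval_X, eval_one, eval_ofNat]
      exact hx)
  have f2 : {x : K | x^2 + x = 0}.Finite :=
    (finite_eval_eq_zero (X^2 + X : K[X]) (Monic.ne_zero (by monicity!))).subset (fun x hx => by
      show Polynomial.eval x (X^2 + X : K[X]) = 0
      simp only [eval_add, eval_mul, eval_pow, eval_X, eval_one, eval_ofNat]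
      exact hx)
  have f3 : {x : K | x^2 + 1 = 0}.Finite :=
    (finite_eval_eq_zero (X^2 + 1 : K[X]) (Monic.ne_zero (by monicity!))).subset (fun x hx => by
      show Polynomial.eval x (X^2 + 1 : K[X]) = 0
      simp only [eval_add, eval_mul, eval_pow, eval_X, eval_one, eval_ofNat]
      exact hx)
  have f4 : {x : K | x^2 + x + 2 = 0}.Finite :=
    (finite_eval_eq_zero (X^2 + X + 2 : K[X]) (Monic.ne_zero (by monicity!))).subset (fun x hx => by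
      show Polynomial.eval x (X^2 + X + 2 : K[X]) = 0
      simp only [eval_add, eval_mul, eval_pow, eval_X, eval_one, eval_ofNat]
      exact hx)
  have f5 : {x : K | x^2 + 2*x + 2 = 0}.Finite :=
    (finite_eval_eq_zero (X^2 + 2*X + 2 : K[X]) (Monic.ne_zero (by monicity!))).subset (fun x hx => by
      show Polynomial.eval x (X^2 + 2*X + 2 : K[X]) = 0
      simp only [eval_add, eval_mul, eval_pow, eval_X, eval_one, eval_ofNat]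
      exact hx)
  refine (f1.union (f2.union (f3.union (f4.union f5)))).subset (fun x hx => ?_)
  by_contra hcon
  exact hx ⟨fun h => hcon (Or.inl h), fun h => hcon (Or.inr (Or.inl h)), fun h => hcon (Or.inr (Or.inr (Or.inl h))), fun h => hcon (Or.inr (Or.inr (Or.inr (Or.inl h)))), fun h => hcon (Or.inr (Or.inr (Or.inr (Or.inr h))))⟩

theorem frobRelAt_c3a (K : Type) [Field K] [DecidableEq K] [Algebra (ZMod 3) K] [IsAlgClosed K] :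
    FrobRelAt 3 K (mkC (0 : ZMod 3) 1 0 0 1) (-2) := by
  have hch : (3 : K) = 0 := three_eq_zero_of_algebra K
  exact frobRelAt_of_generic 3 K _ (by decide) (-2) 3 rfl 0 1 0 0 1
    (by ext <;> simp [WeierstrassCurve.baseChange, map_ofNat])
    (fun x => x + 2 ≠ 0 ∧ x^2 + x ≠ 0 ∧ x^2 + 1 ≠ 0 ∧ x^2 + x + 2 ≠ 0 ∧ x^2 + 2*x + 2 ≠ 0) (bad_c3a K)
    (fun x y h0 h1 h2 hg => gen_c3a hch x y h0 h1 h2 hg.1 hg.2.1 hg.2.2.1 hg.2.2.2.1 hg.2.2.2.2)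

theorem trace_c3a : (mkC (0 : ZMod 3) 1 0 0 1).traceOfFrobenius = -2 := by
  rw [trace_eq_of_count _ (by decide) 5 (by decide)]
  norm_num

/-- Generic Frobenius relation for the curve `(0, 1, 0, 0, 2)` over `F_3` (trace `1`). -/
theorem gen_c3b {K : Type*} [Field K] [DecidableEq K] (hch : (3 : K) = 0) (x y : K)
    (h0 : (mkC (0 : K) 1 0 0 2).Nonsingular x y)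
    (h1 : (mkC (0 : K) 1 0 0 2).Nonsingular (x ^ 3) (y ^ 3))
    (h2 : (mkC (0 : K) 1 0 0 2).Nonsingular ((x ^ 3) ^ 3) ((y ^ 3) ^ 3))
    (hb1 : x^3 + 2 ≠ 0)
    (hb2 : x^3 + x^2 + 2 ≠ 0)
    (hb3 : x^6 + x^3 ≠ 0)
    : Point.some _ _ h2 - (1 : ℤ) • Point.some _ _ h1 + (3 : ℤ) • Point.some _ _ h0 = 0 := by
  have hE := equation_mk (0 : K) 1 0 0 2 h0
  obtain ⟨i1, hi1⟩ : ∃ i : K, (x^3 + 2) * i = 1 := ⟨_, mul_inv_cancel₀ hb1⟩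
  obtain ⟨i2, hi2⟩ : ∃ i : K, (x^3 + x^2 + 2) * i = 1 := ⟨_, mul_inv_cancel₀ hb2⟩
  obtain ⟨i3, hi3⟩ : ∃ i : K, (x^6 + x^3) * i = 1 := ⟨_, mul_inv_cancel₀ hb3⟩
  have hy1 : 2 * y + 0 * x + 0 ≠ 0 := ne_zero_of_mul_eq_one (b := (2*y)*i2) (by linear_combination (4*i2) * hE + (1) * hi2 + (x^3*i2 + x^2*i2 + 2*i2) * hch)
  obtain ⟨h11, e11⟩ := dbl_some_of_line' 0 1 0 0 2 h0 hy1 ((x*y)*i2) ((x^4 + 2*x + 1)*i2) (((2*x^6 + x^5 + 2*x^3 + 2*x^2 + 2*x + 2)*y)*i2^2)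
    (by linear_combination (2*x*i2) * hE + (3*x^2 + 2*x) * hi2 + (-x^5*i2 - x^4*i2 - 2*x^2*i2) * hch)
    (by linear_combination (-x^2*i2^2) * hE + (-3*x^4*i2 - 3*x^3*i2 - x^2*i2 - 6*x*i2 - 2*x - 3*i2 - 1) * hi2 + (x^7*i2^2 + 2*x^6*i2^2 + x^5*i2^2 + 4*x^4*i2^2 + 5*x^3*i2^2 + x^2*i2^2 + 4*x*i2^2 + 2*i2^2) * hch)
    (by linear_combination (-x^3*y*i2 - 2*y*i2 - y) * hi2 + (x^6*y*i2^2 + x^5*y*i2^2 + 2*x^3*y*i2^2 + 2*x^2*y*i2^2 + x*y*i2^2 + 2*y*i2^2) * hch)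
  have hx2 : (x^4 + 2*x + 1)*i2 ≠ x := ne_of_sub_mul_eq_one (b := (2*x^3 + 2*x^2 + 1)*i1) (by linear_combination (1) * hi1 + (2*x^4*i1 + 3*x^3*i1 + x*i1 + 2*i1) * hi2 + (-x^6*i1*i2 - x^5*i1*i2 - x^3*i1*i2 - i1*i2) * hch)
  obtain ⟨h12, e12⟩ := add_some_of_line' 0 1 0 0 2 h11 h0 hx2 (((2*x^6 + x^5 + x^4 + 2*x^3 + 2*x^2 + x + 2)*y)*i1*i2) ((x^9 + x^3 + 2)*i1^2) (((x^12 + x^11 + 2*x^9 + 2*x^6 + 2*x^5 + 2*x^3 + x^2 + 2)*y)*i1^3)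
    (by linear_combination (2*x^6*y*i2^2 + x^5*y*i2^2 + 2*x^3*y*i2^2 + 2*x^2*y*i2^2 + 2*x*y*i2^2 + 2*y*i2^2 - y) * hi1 + (2*x^7*y*i1*i2 + 2*x^4*y*i1*i2 - 2*x^3*y*i1*i2 - x^3*y*i1 - x^2*y*i1*i2 + 2*x*y*i1*i2 - 4*y*i1*i2 - 2*y*i1) * hi2 + (-x^9*y*i1*i2^2 + x^5*y*i1*i2^2 + 2*x^3*y*i1*i2^2 + 2*x^2*y*i1*i2^2 - x*y*i1*i2^2 + 2*y*i1*i2^2) * hch)
    (by linear_combination (-4*x^12*i1^2*i2^2 - 4*x^11*i1^2*i2^2 - 5*x^10*i1^2*i2^2 - 10*x^9*i1^2*i2^2 - 13*x^8*i1^2*i2^2 - 12*x^7*i1^2*i2^2 - 18*x^6*i1^2*i2^2 - 14*x^5*i1^2*i2^2 - 12*x^4*i1^2*i2^2 - 12*x^3*i1^2*i2^2 - 9*x^2*i1^2*i2^2 - 4*x*i1^2*i2^2 - 4*i1^2*i2^2) * hE + (-x^7*i1*i2 - 4*x^4*i1*i2 - x^4*i1 - x^4*i2 - x^3*i1*i2 - x^3*i1 - 4*x*i1*i2 - 2*x*i1 - 2*x*i2 - x -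 2*i1*i2 - 2*i1 - i2 - 1) * hi1 + (-x^12*i1^2*i2 - x^11*i1^2*i2 - 2*x^10*i1^2*i2 - 4*x^9*i1^2*i2 - x^9*i1^2 - x^8*i1^2*i2 - 12*x^7*i1^2*i2 - x^7*i1^2 - 12*x^6*i1^2*i2 - x^6*i1^2 - 5*x^5*i1^2*i2 - 24*x^4*i1^2*i2 - 4*x^4*i1^2 - 24*x^3*i1^2*i2 - 5*x^3*i1^2 - 6*x^2*i1^2*i2 - 16*x*i1^2*i2 - 4*x*i1^2 - 16*i1^2*i2 - 6*i1^2) * hi2 + (-x^15*i1^2*i2^2 - 2*x^14*i1^2*i2^2 - 2*x^13*i1^2*i2^2 - 5*x^12*i1^2*i2^2 - 8*x^11*i1^2*i2^2 - 6*x^10*i1^2*i2^2 - 6*x^9*i1^2*i2^2 - 13*x^8*i1^2*i2^2 + x^7*i1^2*i2^2 + 4*x^6*i1^2*i2^2 - 3*x^5*i1^2*i2^2 + 11*x^4*i1^2*i2^2 + 16*x^3*i1^2*i2^2 + 2*x^2*i1^2*i2^2 + 8*x*i1^2*i2^2 + 8*i1^2*i2^2) * hch)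
    (by linear_combination (2*x^13*y*i1^2*i2^2 - x^12*y*i1^2*i2^2 + 10*x^10*y*i1^2*i2^2 + 2*x^10*y*i1*i2^2 - 2*x^9*y*i1^2*i2^2 - x^9*y*i1*i2^2 + 17*x^7*y*i1^2*i2^2 + 6*x^7*y*i1*i2^2 - 2*x^6*y*i2^2 - x^5*y*i2^2 + 11*x^4*y*i1^2*i2^2 + 5*x^4*y*i1*i2^2 - 2*x^3*y*i1^2*i2^2 - 2*x^3*y*i2^2 - 2*x^2*y*i2^2 + 2*x*y*i1^2*i2^2 + x*y*i1*i2^2 - 2*x*y*i2^2 - 4*y*i1^2*i2^2 - 2*y*i1*i2^2 - 2*y*i2^2) * hi1 + (-3*x^15*y*i1^3*i2 - 3*x^14*y*i1^3*i2 - 2*x^13*y*i1^3*i2 - 6*x^12*y*i1^3*i2 - x^12*y*i1^3 - 6*x^11*y*i1^3*i2 - x^11*y*i1^3 - x^10*y*i1^3*i2 - 10*x^9*y*i1^3*i2 - 2*x^9*y*i1^3 - 5*x^8*y*i1^3*i2 - 3*x^7*y*i1^3*i2 - 12*x^6*y*i1^3*i2 - 2*x^6*y*i1^3 - 11*x^5*y*i1^3*i2 - 2*x^5*y*i1^3 - 4*x^4*y*i1^3*i2 - 12*x^3*y*i1^3*i2 - 2*x^3*y*i1^3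 - 8*x^2*y*i1^3*i2 - x^2*y*i1^3 - 2*x*y*i1^3*i2 - 8*y*i1^3*i2 - 2*y*i1^3) * hi2 + (x^18*y*i1^3*i2^2 + 2*x^17*y*i1^3*i2^2 + x^16*y*i1^3*i2^2 + 5*x^15*y*i1^3*i2^2 + 6*x^14*y*i1^3*i2^2 - x^13*y*i1^3*i2^2 + 9*x^12*y*i1^3*i2^2 + 9*x^11*y*i1^3*i2^2 - 9*x^10*y*i1^3*i2^2 + 13*x^9*y*i1^3*i2^2 + 11*x^8*y*i1^3*i2^2 - 8*x^7*y*i1^3*i2^2 + 14*x^6*y*i1^3*i2^2 + 14*x^5*y*i1^3*i2^2 - 2*x^4*y*i1^3*i2^2 + 14*x^3*y*i1^3*i2^2 + 8*x^2*y*i1^3*i2^2 + 8*y*i1^3*i2^2) * hch)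
  obtain ⟨h13, e13⟩ := neg_some_of_eq' 0 1 0 0 2 h1 (-(y ^ 3) - 0 * (x ^ 3) - 0) rfl
  have hx4 : (x ^ 3) ^ 3 ≠ x ^ 3 := ne_of_sub_mul_eq_one (b := 1*i1*i3) (by linear_combination (1) * hi1 + (x^3*i1 + 2*i1) * hi3 + (-x^6*i1*i3 - x^3*i1*i3) * hch)
  obtain ⟨h14, e14⟩ := add_some_of_line' 0 1 0 0 2 h2 h13 hx4 (((x^6 + x^5 + 2*x^3)*y)*i1) ((x^9 + x^3 + 2)*i1^2) (((2*x^12 + 2*x^11 + x^9 + x^6 + x^5 + x^3 + 2*x^2 + 1)*y)*i1^3)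
    (by linear_combination (-x^12*y*i1 - 3*x^11*y*i1 - 3*x^10*y*i1 - x^9*y^3*i1 - 9*x^9*y*i1 - 2*x^8*y^3*i1 - 18*x^8*y*i1 - x^7*y^3*i1 - 12*x^7*y*i1 - x^6*y^5*i1 - 6*x^6*y^3*i1 - 26*x^6*y*i1 - x^5*y^5*i1 - 8*x^5*y^3*i1 - 36*x^5*y*i1 - 2*x^4*y^3*i1 - 12*x^4*y*i1 - x^3*y^7*i1 - 4*x^3*y^5*i1 - 12*x^3*y^3*i1 - 33*x^3*y*i1 - 2*x^2*y^5*i1 - 8*x^2*y^3*i1 - 24*x^2*y*i1 - 2*y^7*i1 - 4*y^5*i1 - 8*y^3*i1 - 18*y*i1) * hE + (y^9 + y^3) * hi1 + (-x^14*y*i1 - 2*x^13*y*i1 - 4*x^12*y*i1 - 11*x^11*y*i1 - 12*x^10*y*i1 - 19*x^9*y*i1 - 33*x^8*y*i1 - 24*x^7*y*i1 - 33*x^6*y*i1 - 43*x^5*y*i1 - 16*x^4*y*i1 - 28*x^3*y*i1 - 22*x^2*y*i1 - 12*y*i1) * hch)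
    (by linear_combination (-x^12*i1^2 - 2*x^11*i1^2 - x^10*i1^2 - 4*x^9*i1^2 - 4*x^8*i1^2 - 4*x^6*i1^2) * hE + (-x^12*i1 - 2*x^9*i1 - x^9 - x^6*i1 - 3*x^3*i1 - x^3 - 2*i1 - 1) * hi1 + (-x^14*i1^2 - x^13*i1^2 - x^12*i1^2 - 4*x^11*i1^2 - 2*x^10*i1^2 - 2*x^9*i1^2 - 4*x^8*i1^2 - x^6*i1^2 + 3*x^3*i1^2 + 2*i1^2) * hch)
    (by linear_combination (x^18*y*i1^3 + 3*x^17*y*i1^3 + 3*x^16*y*i1^3 + x^15*y^3*i1^3 + 13*x^15*y*i1^3 + 2*x^14*y^3*i1^3 + 30*x^14*y*i1^3 + x^13*y^3*i1^3 + 24*x^13*y*i1^3 + x^12*y^5*i1^3 + 10*x^12*y^3*i1^3 + 66*x^12*y*i1^3 + x^11*y^5*i1^3 + 16*x^11*y^3*i1^3 + 120*x^11*y*i1^3 + 6*x^10*y^3*i1^3 + 72*x^10*y*i1^3 + x^9*y^7*i1^3 + 8*x^9*y^5*i1^3 + 40*x^9*y^3*i1^3 + 172*x^9*y*i1^3 + 6*x^8*y^5*i1^3 +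 48*x^8*y^3*i1^3 + 240*x^8*y*i1^3 + 12*x^7*y^3*i1^3 + 96*x^7*y*i1^3 + 6*x^6*y^7*i1^3 + 24*x^6*y^5*i1^3 + 80*x^6*y^3*i1^3 + 248*x^6*y*i1^3 + 12*x^5*y^5*i1^3 + 64*x^5*y^3*i1^3 + 240*x^5*y*i1^3 + 8*x^4*y^3*i1^3 + 48*x^4*y*i1^3 + 12*x^3*y^7*i1^3 + 32*x^3*y^5*i1^3 + 80*x^3*y^3*i1^3 + 192*x^3*y*i1^3 + 8*x^2*y^5*i1^3 + 32*x^2*y^3*i1^3 + 96*x^2*y*i1^3 + 8*y^7*i1^3 + 16*y^5*i1^3 + 32*y^3*i1^3 + 64*y*i1^3) * hE + (x^18*y*i1^2 + x^17*y*i1^2 + 4*x^15*y*i1^2 + x^15*y*i1 + 2*x^14*y*i1^2 + x^14*y*i1 + 4*x^12*y*i1^2 + 2*x^12*y*i1 - x^6*y^9*i1^2 - 4*x^3*y^9*i1^2 - x^3*y^9*i1 - 4*y^9*i1^2 - 2*y^9*i1 - y^9) * hi1 + (x^20*y*i1^3 + 2*x^19*y*i1^3 + 4*x^18*y*i1^3 + 15*x^17*y*i1^3 + 20*x^16*y*i1^3 + 35*x^15*y*i1^3 + 81*x^14*y*i1^3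 + 80*x^13*y*i1^3 + 124*x^12*y*i1^3 + 218*x^11*y*i1^3 + 160*x^10*y*i1^3 + 230*x^9*y*i1^3 + 323*x^8*y*i1^3 + 160*x^7*y*i1^3 + 247*x^6*y*i1^3 + 257*x^5*y*i1^3 + 64*x^4*y*i1^3 + 151*x^3*y*i1^3 + 86*x^2*y*i1^3 + 43*y*i1^3) * hch)
  obtain ⟨h15, e15⟩ := neg_some_of_eq' 0 1 0 0 2 h12 (-(((x^12 + x^11 + 2*x^9 + 2*x^6 + 2*x^5 + 2*x^3 + x^2 + 2)*y)*i1^3) - 0 * ((x^9 + x^3 + 2)*i1^2) - 0) rfl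
  have e16 : Point.some _ _ h14 = Point.some _ _ h15 := some_eq_some _ h14 h15
    (by ring)
    (by linear_combination (x^12*y*i1^3 + x^11*y*i1^3 + x^9*y*i1^3 + x^6*y*i1^3 + x^5*y*i1^3 + x^3*y*i1^3 + x^2*y*i1^3 + y*i1^3) * hch)
  exact fin_3_1 _ _ _ (by rw [e13, e14, e11, e12, e15, e16])

theorem bad_c3b (K : Type*) [Field K] : {x : K | ¬ (x^3 + 2 ≠ 0 ∧ x^3 + x^2 + 2 ≠ 0 ∧ x^6 + x^3 ≠ 0)}.Finite := by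
  have f1 : {x : K | x^3 + 2 = 0}.Finite :=
    (finite_eval_eq_zero (X^3 + 2 : K[X]) (Monic.ne_zero (by monicity!))).subset (fun x hx => by
      show Polynomial.eval x (X^3 + 2 : K[X]) = 0
      simp only [eval_add, eval_mul, eval_pow, eval_X, eval_one, eval_ofNat]
      exact hx)
  have f2 : {x : K | x^3 + x^2 + 2 = 0}.Finite :=
    (finite_eval_eq_zero (X^3 + X^2 + 2 : K[X]) (Monic.ne_zero (by monicity!))).subset (fun x hx => by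
      show Polynomial.eval x (X^3 + X^2 + 2 : K[X]) = 0
      simp only [eval_add, eval_mul, eval_pow, eval_X, eval_one, eval_ofNat]
      exact hx)
  have f3 : {x : K | x^6 + x^3 = 0}.Finite :=
    (finite_eval_eq_zero (X^6 + X^3 : K[X]) (Monic.ne_zero (by monicity!))).subset (fun x hx => by
      show Polynomial.eval x (X^6 + X^3 : K[X]) = 0
      simp only [eval_add, eval_mul, eval_pow, eval_X, eval_one, eval_ofNat]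
      exact hx)
  refine (f1.union (f2.union f3)).subset (fun x hx => ?_)
  by_contra hcon
  exact hx ⟨fun h => hcon (Or.inl h), fun h => hcon (Or.inr (Or.inl h)), fun h => hcon (Or.inr (Or.inr h))⟩

theorem frobRelAt_c3b (K : Type) [Field K] [DecidableEq K] [Algebra (ZMod 3) K] [IsAlgClosed K] :
    FrobRelAt 3 K (mkC (0 : ZMod 3) 1 0 0 2) (1) := by
  have hch : (3 : K) = 0 := three_eq_zero_of_algebra K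
  exact frobRelAt_of_generic 3 K _ (by decide) (1) 3 rfl 0 1 0 0 2
    (by ext <;> simp [WeierstrassCurve.baseChange, map_ofNat])
    (fun x => x^3 + 2 ≠ 0 ∧ x^3 + x^2 + 2 ≠ 0 ∧ x^6 + x^3 ≠ 0) (bad_c3b K)
    (fun x y h0 h1 h2 hg => gen_c3b hch x y h0 h1 h2 hg.1 hg.2.1 hg.2.2)

theorem trace_c3b : (mkC (0 : ZMod 3) 1 0 0 2).traceOfFrobenius = 1 := by
  rw [trace_eq_of_count _ (by decide) 2 (by decide)]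
  norm_num

/-- Generic Frobenius relation for the curve `(0, 2, 0, 0, 1)` over `F_3` (trace `-1`). -/
theorem gen_c3c {K : Type*} [Field K] [DecidableEq K] (hch : (3 : K) = 0) (x y : K)
    (h0 : (mkC (0 : K) 2 0 0 1).Nonsingular x y)
    (h1 : (mkC (0 : K) 2 0 0 1).Nonsingular (x ^ 3) (y ^ 3))
    (h2 : (mkC (0 : K) 2 0 0 1).Nonsingular ((x ^ 3) ^ 3) ((y ^ 3) ^ 3))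
    (hb1 : x^3 + 1 ≠ 0)
    (hb2 : x^3 + 2*x^2 + 1 ≠ 0)
    (hb3 : x^6 + 2*x^3 ≠ 0)
    : Point.some _ _ h2 - (-1 : ℤ) • Point.some _ _ h1 + (3 : ℤ) • Point.some _ _ h0 = 0 := by
  have hE := equation_mk (0 : K) 2 0 0 1 h0
  obtain ⟨i1, hi1⟩ : ∃ i : K, (x^3 + 1) * i = 1 := ⟨_, mul_inv_cancel₀ hb1⟩
  obtain ⟨i2, hi2⟩ : ∃ i : K, (x^3 + 2*x^2 + 1) * i = 1 := ⟨_, mul_inv_cancel₀ hb2⟩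
  obtain ⟨i3, hi3⟩ : ∃ i : K, (x^6 + 2*x^3) * i = 1 := ⟨_, mul_inv_cancel₀ hb3⟩
  have hy1 : 2 * y + 0 * x + 0 ≠ 0 := ne_zero_of_mul_eq_one (b := (2*y)*i2) (by linear_combination (4*i2) * hE + (1) * hi2 + (x^3*i2 + 2*x^2*i2 + i2) * hch)
  obtain ⟨h11, e11⟩ := dbl_some_of_line' 0 2 0 0 1 h0 hy1 (((2*x)*y)*i2) ((x^4 + x + 1)*i2) (((2*x^6 + 2*x^5 + x^3 + 2*x^2 + x + 2)*y)*i2^2)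
    (by linear_combination (4*x*i2) * hE + (3*x^2 + 4*x) * hi2 + (-x^5*i2 - 2*x^4*i2 - x^2*i2) * hch)
    (by linear_combination (-4*x^2*i2^2) * hE + (-3*x^4*i2 - 6*x^3*i2 - 4*x^2*i2 - 3*x*i2 - 2*x - 3*i2 - 2) * hi2 + (x^7*i2^2 + 4*x^6*i2^2 + 4*x^5*i2^2 + 2*x^4*i2^2 + 5*x^3*i2^2 + 2*x^2*i2^2 + x*i2^2 + i2^2) * hch)
    (by linear_combination (-x^3*y*i2 - y*i2 - y) * hi2 + (x^6*y*i2^2 + 2*x^5*y*i2^2 + x^3*y*i2^2 + 2*x^2*y*i2^2 + x*y*i2^2 + y*i2^2) * hch)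
  have hx2 : (x^4 + x + 1)*i2 ≠ x := ne_of_sub_mul_eq_one (b := (x^3 + 2*x^2 + 1)*i1) (by linear_combination (1) * hi1 + (x^4*i1 + 3*x^3*i1 + x*i1 + i1) * hi2 + (-x^6*i1*i2 - 2*x^5*i1*i2 - x^3*i1*i2) * hch)
  obtain ⟨h12, e12⟩ := add_some_of_line' 0 2 0 0 1 h11 h0 hx2 (((x^6 + x^5 + 2*x^4 + 2*x^3 + x^2 + x + 1)*y)*i1*i2) ((x^9 + x^3 + 1)*i1^2) (((2*x^12 + x^11 + 2*x^9 + x^6 + 2*x^5 + 2*x^3 + 2*x^2 + 1)*y)*i1^3)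
    (by linear_combination (2*x^6*y*i2^2 + 2*x^5*y*i2^2 + x^3*y*i2^2 + 2*x^2*y*i2^2 + x*y*i2^2 + 2*y*i2^2 - y) * hi1 + (x^7*y*i1*i2 + 2*x^4*y*i1*i2 - x^3*y*i1*i2 - x^3*y*i1 - x^2*y*i1*i2 + x*y*i1*i2 - y*i1*i2 - y*i1) * hi2 + (-x^9*y*i1*i2^2 - x^6*y*i1*i2^2 + x^5*y*i1*i2^2 + x^4*y*i1*i2^2 + x^2*y*i1*i2^2) * hch)
    (by linear_combination (-x^12*i1^2*i2^2 - 2*x^11*i1^2*i2^2 - 5*x^10*i1^2*i2^2 - 8*x^9*i1^2*i2^2 - 10*x^8*i1^2*i2^2 - 12*x^7*i1^2*i2^2 - 12*x^6*i1^2*i2^2 - 10*x^5*i1^2*i2^2 - 9*x^4*i1^2*i2^2 - 6*x^3*i1^2*i2^2 - 3*x^2*i1^2*i2^2 - 2*x*i1^2*i2^2 - i1^2*i2^2) * hE + (-x^7*i1*i2 - 2*x^4*i1*i2 - x^4*i1 - x^4*i2 - x^3*i1*i2 - 2*x^3*i1 - x*i1*i2 - x*i1 - x*i2 - x - i1*i2 - 2*i1 - i2 - 2) * hi1 + (-x^12*i1^2*i2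 - 2*x^11*i1^2*i2 - 2*x^10*i1^2*i2 - 5*x^9*i1^2*i2 - x^9*i1^2 - 4*x^8*i1^2*i2 - 6*x^7*i1^2*i2 - x^7*i1^2 - 12*x^6*i1^2*i2 - 2*x^6*i1^2 - 10*x^5*i1^2*i2 - 6*x^4*i1^2*i2 - 2*x^4*i1^2 - 12*x^3*i1^2*i2 - 5*x^3*i1^2 - 6*x^2*i1^2*i2 - 2*x*i1^2*i2 - x*i1^2 - 4*i1^2*i2 - 3*i1^2) * hi2 + (-x^13*i1^2*i2^2 - 3*x^12*i1^2*i2^2 - 4*x^11*i1^2*i2^2 - 7*x^10*i1^2*i2^2 - 5*x^9*i1^2*i2^2 - 2*x^8*i1^2*i2^2 - 3*x^7*i1^2*i2^2 + 5*x^5*i1^2*i2^2 + x^4*i1^2*i2^2 + 3*x^3*i1^2*i2^2 + 3*x^2*i1^2*i2^2 + i1^2*i2^2) * hch)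
    (by linear_combination (x^13*y*i1^2*i2^2 - x^12*y*i1^2*i2^2 + 4*x^10*y*i1^2*i2^2 + x^10*y*i1*i2^2 - x^9*y*i1^2*i2^2 - x^9*y*i1*i2^2 + 7*x^7*y*i1^2*i2^2 + 3*x^7*y*i1*i2^2 - 2*x^6*y*i2^2 - 2*x^5*y*i2^2 + 5*x^4*y*i1^2*i2^2 + 4*x^4*y*i1*i2^2 - x^3*y*i1^2*i2^2 - x^3*y*i2^2 - 2*x^2*y*i2^2 + x*y*i1^2*i2^2 + x*y*i1*i2^2 - x*y*i2^2 - y*i1^2*i2^2 - y*i1*i2^2 - 2*y*i2^2) * hi1 + (-3*x^15*y*i1^3*i2 - 6*x^14*y*i1^3*i2 - 4*x^13*y*i1^3*i2 - 6*x^12*y*i1^3*i2 - 2*x^12*y*i1^3 - 6*x^11*y*i1^3*i2 - x^11*y*i1^3 - x^10*y*i1^3*i2 - 5*x^9*y*i1^3*i2 - 2*x^9*y*i1^3 - 5*x^8*y*i1^3*i2 - 6*x^7*y*i1^3*i2 - 6*x^6*y*i1^3*i2 - x^6*y*i1^3 - 10*x^5*y*i1^3*i2 - 2*x^5*y*i1^3 - 7*x^4*y*i1^3*i2 - 6*x^3*y*i1^3*i2 - 2*x^3*y*i1^3 - 5*x^2*y*i1^3*i2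 - 2*x^2*y*i1^3 - x*y*i1^3*i2 - 2*y*i1^3*i2 - y*i1^3) * hi2 + (x^18*y*i1^3*i2^2 + 4*x^17*y*i1^3*i2^2 + 5*x^16*y*i1^3*i2^2 + 6*x^15*y*i1^3*i2^2 + 8*x^14*y*i1^3*i2^2 + 4*x^13*y*i1^3*i2^2 + 5*x^12*y*i1^3*i2^2 + 7*x^11*y*i1^3*i2^2 + 2*x^10*y*i1^3*i2^2 + 8*x^9*y*i1^3*i2^2 + 9*x^8*y*i1^3*i2^2 + 7*x^7*y*i1^3*i2^2 + 9*x^6*y*i1^3*i2^2 + 9*x^5*y*i1^3*i2^2 + 4*x^4*y*i1^3*i2^2 + 4*x^3*y*i1^3*i2^2 + 3*x^2*y*i1^3*i2^2 + y*i1^3*i2^2) * hch)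
  have hx3 : (x ^ 3) ^ 3 ≠ x ^ 3 := ne_of_sub_mul_eq_one (b := 1*i1*i3) (by linear_combination (1) * hi1 + (x^3*i1 + i1) * hi3 + (-x^6*i1*i3 - x^3*i1*i3) * hch)
  obtain ⟨h13, e13⟩ := add_some_of_line' 0 2 0 0 1 h2 h1 hx3 (((x^6 + 2*x^5 + x^3)*y)*i1) ((x^9 + x^3 + 1)*i1^2) (((x^12 + 2*x^11 + x^9 + 2*x^6 + x^5 + x^3 + x^2 + 2)*y)*i1^3)
    (by linear_combination (-x^12*y*i1 - 6*x^11*y*i1 - 12*x^10*y*i1 - x^9*y^3*i1 - 12*x^9*y*i1 - 4*x^8*y^3*i1 - 18*x^8*y*i1 - 4*x^7*y^3*i1 - 24*x^7*y*i1 - x^6*y^5*i1 - 3*x^6*y^3*i1 - 14*x^6*y*i1 - 2*x^5*y^5*i1 - 8*x^5*y^3*i1 - 18*x^5*y*i1 - 4*x^4*y^3*i1 - 12*x^4*y*i1 - x^3*y^7*i1 - 2*x^3*y^5*i1 - 3*x^3*y^3*i1 - 3*x^3*y*i1 - 2*x^2*y^5*i1 - 4*x^2*y^3*i1 - 6*x^2*y*i1 - y^7*i1 -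 y^5*i1 - y^3*i1) * hE + (y^9 - y^3) * hi1 + (-2*x^14*y*i1 - 8*x^13*y*i1 - 12*x^12*y*i1 - 16*x^11*y*i1 - 24*x^10*y*i1 - 25*x^9*y*i1 - 22*x^8*y*i1 - 24*x^7*y*i1 - 14*x^6*y*i1 - 10*x^5*y*i1 - 8*x^4*y*i1 - x^3*y*i1 - 2*x^2*y*i1) * hch)
    (by linear_combination (-x^12*i1^2 - 4*x^11*i1^2 - 4*x^10*i1^2 - 2*x^9*i1^2 - 4*x^8*i1^2 - x^6*i1^2) * hE + (-x^12*i1 - x^9*i1 - x^9 - x^6*i1 - 3*x^3*i1 - x^3 - 2*i1 - 2) * hi1 + (-2*x^14*i1^2 - 4*x^13*i1^2 - 3*x^12*i1^2 - 4*x^11*i1^2 - 4*x^10*i1^2 - 2*x^8*i1^2 + x^6*i1^2 + 2*x^3*i1^2 + i1^2) * hch)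
    (by linear_combination (x^18*y*i1^3 + 6*x^17*y*i1^3 + 12*x^16*y*i1^3 + x^15*y^3*i1^3 + 14*x^15*y*i1^3 + 4*x^14*y^3*i1^3 + 30*x^14*y*i1^3 + 4*x^13*y^3*i1^3 + 48*x^13*y*i1^3 + x^12*y^5*i1^3 + 5*x^12*y^3*i1^3 + 39*x^12*y*i1^3 + 2*x^11*y^5*i1^3 + 16*x^11*y^3*i1^3 + 60*x^11*y*i1^3 + 12*x^10*y^3*i1^3 + 72*x^10*y*i1^3 + x^9*y^7*i1^3 + 4*x^9*y^5*i1^3 + 10*x^9*y^3*i1^3 + 44*x^9*y*i1^3 + 6*x^8*y^5*i1^3 + 24*x^8*y^3*i1^3 + 60*x^8*y*i1^3 + 12*x^7*y^3*i1^3 + 48*x^7*y*i1^3 + 3*x^6*y^7*i1^3 + 6*x^6*y^5*i1^3 + 10*x^6*y^3*i1^3 + 23*x^6*y*i1^3 + 6*x^5*y^5*i1^3 + 16*x^5*y^3*i1^3 + 30*x^5*y*i1^3 + 4*x^4*y^3*i1^3 + 12*x^4*y*i1^3 + 3*x^3*y^7*i1^3 + 4*x^3*y^5*i1^3 + 5*x^3*y^3*i1^3 + 6*x^3*y*i1^3 + 2*x^2*y^5*i1^3 + 4*x^2*y^3*i1^3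 + 6*x^2*y*i1^3 + y^7*i1^3 + y^5*i1^3 + y^3*i1^3 + y*i1^3) * hE + (x^18*y*i1^2 + 2*x^17*y*i1^2 + 2*x^15*y*i1^2 + x^15*y*i1 + 2*x^14*y*i1^2 + 2*x^14*y*i1 + x^12*y*i1^2 + x^12*y*i1 - x^6*y^9*i1^2 - 2*x^3*y^9*i1^2 - x^3*y^9*i1 - y^9*i1^2 - y^9*i1 - y^9) * hi1 + (2*x^20*y*i1^3 + 8*x^19*y*i1^3 + 12*x^18*y*i1^3 + 20*x^17*y*i1^3 + 40*x^16*y*i1^3 + 49*x^15*y*i1^3 + 56*x^14*y*i1^3 + 80*x^13*y*i1^3 + 76*x^12*y*i1^3 + 70*x^11*y*i1^3 + 80*x^10*y*i1^3 + 55*x^9*y*i1^3 + 46*x^8*y*i1^3 + 40*x^7*y*i1^3 + 19*x^6*y*i1^3 + 17*x^5*y*i1^3 + 8*x^4*y*i1^3 + 3*x^3*y*i1^3 + 3*x^2*y*i1^3 + y*i1^3) * hch)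
  obtain ⟨h14, e14⟩ := neg_some_of_eq' 0 2 0 0 1 h12 (-(((2*x^12 + x^11 + 2*x^9 + x^6 + 2*x^5 + 2*x^3 + 2*x^2 + 1)*y)*i1^3) - 0 * ((x^9 + x^3 + 1)*i1^2) - 0) rfl
  have e15 : Point.some _ _ h13 = Point.some _ _ h14 := some_eq_some _ h13 h14
    (by ring)
    (by linear_combination (x^12*y*i1^3 + x^11*y*i1^3 + x^9*y*i1^3 + x^6*y*i1^3 + x^5*y*i1^3 + x^3*y*i1^3 + x^2*y*i1^3 + y*i1^3) * hch)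
  exact fin_3_m1 _ _ _ (by rw [e13, e11, e12, e14, e15])

theorem bad_c3c (K : Type*) [Field K] : {x : K | ¬ (x^3 + 1 ≠ 0 ∧ x^3 + 2*x^2 + 1 ≠ 0 ∧ x^6 + 2*x^3 ≠ 0)}.Finite := by
  have f1 : {x : K | x^3 + 1 = 0}.Finite :=
    (finite_eval_eq_zero (X^3 + 1 : K[X]) (Monic.ne_zero (by monicity!))).subset (fun x hx => by
      show Polynomial.eval x (X^3 + 1 : K[X]) = 0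
      simp only [eval_add, eval_mul, eval_pow, eval_X, eval_one, eval_ofNat]
      exact hx)
  have f2 : {x : K | x^3 + 2*x^2 + 1 = 0}.Finite :=
    (finite_eval_eq_zero (X^3 + 2*X^2 + 1 : K[X]) (Monic.ne_zero (by monicity!))).subset (fun x hx => by
      show Polynomial.eval x (X^3 + 2*X^2 + 1 : K[X]) = 0
      simp only [eval_add, eval_mul, eval_pow, eval_X, eval_one, eval_ofNat]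
      exact hx)
  have f3 : {x : K | x^6 + 2*x^3 = 0}.Finite :=
    (finite_eval_eq_zero (X^6 + 2*X^3 : K[X]) (Monic.ne_zero (by monicity!))).subset (fun x hx => by
      show Polynomial.eval x (X^6 + 2*X^3 : K[X]) = 0
      simp only [eval_add, eval_mul, eval_pow, eval_X, eval_one, eval_ofNat]
      exact hx)
  refine (f1.union (f2.union f3)).subset (fun x hx => ?_)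
  by_contra hcon
  exact hx ⟨fun h => hcon (Or.inl h), fun h => hcon (Or.inr (Or.inl h)), fun h => hcon (Or.inr (Or.inr h))⟩

theorem frobRelAt_c3c (K : Type) [Field K] [DecidableEq K] [Algebra (ZMod 3) K] [IsAlgClosed K] :
    FrobRelAt 3 K (mkC (0 : ZMod 3) 2 0 0 1) (-1) := by
  have hch : (3 : K) = 0 := three_eq_zero_of_algebra K
  exact frobRelAt_of_generic 3 K _ (by decide) (-1) 3 rfl 0 2 0 0 1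
    (by ext <;> simp [WeierstrassCurve.baseChange, map_ofNat])
    (fun x => x^3 + 1 ≠ 0 ∧ x^3 + 2*x^2 + 1 ≠ 0 ∧ x^6 + 2*x^3 ≠ 0) (bad_c3c K)
    (fun x y h0 h1 h2 hg => gen_c3c hch x y h0 h1 h2 hg.1 hg.2.1 hg.2.2)

theorem trace_c3c : (mkC (0 : ZMod 3) 2 0 0 1).traceOfFrobenius = -1 := by
  rw [trace_eq_of_count _ (by decide) 4 (by decide)]
  norm_num

/-- Generic Frobenius relation for the curve `(0, 2, 0, 0, 2)` over `F_3` (trace `2`). -/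
theorem gen_c3d {K : Type*} [Field K] [DecidableEq K] (hch : (3 : K) = 0) (x y : K)
    (h0 : (mkC (0 : K) 2 0 0 2).Nonsingular x y)
    (h1 : (mkC (0 : K) 2 0 0 2).Nonsingular (x ^ 3) (y ^ 3))
    (h2 : (mkC (0 : K) 2 0 0 2).Nonsingular ((x ^ 3) ^ 3) ((y ^ 3) ^ 3))
    (hb1 : x + 1 ≠ 0)
    (hb2 : x^2 + 2*x ≠ 0)
    (hb3 : x^2 + 1 ≠ 0)
    (hb4 : x^2 + x + 2 ≠ 0)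
    (hb5 : x^2 + 2*x + 2 ≠ 0)
    : Point.some _ _ h2 - (2 : ℤ) • Point.some _ _ h1 + (3 : ℤ) • Point.some _ _ h0 = 0 := by
  have hE := equation_mk (0 : K) 2 0 0 2 h0
  obtain ⟨i1, hi1⟩ : ∃ i : K, (x + 1) * i = 1 := ⟨_, mul_inv_cancel₀ hb1⟩
  obtain ⟨i2, hi2⟩ : ∃ i : K, (x^2 + 2*x) * i = 1 := ⟨_, mul_inv_cancel₀ hb2⟩
  obtain ⟨i3, hi3⟩ : ∃ i : K, (x^2 + 1) * i = 1 := ⟨_, mul_inv_cancel₀ hb3⟩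
  obtain ⟨i4, hi4⟩ : ∃ i : K, (x^2 + x + 2) * i = 1 := ⟨_, mul_inv_cancel₀ hb4⟩
  obtain ⟨i5, hi5⟩ : ∃ i : K, (x^2 + 2*x + 2) * i = 1 := ⟨_, mul_inv_cancel₀ hb5⟩
  obtain ⟨h11, e11⟩ := neg_some_of_eq' 0 2 0 0 2 h0 (-y - 0 * x - 0) rfl
  have hx2 : x ^ 3 ≠ x := ne_of_sub_mul_eq_one (b := 1*i1*i2) (by linear_combination (1) * hi1 + (x*i1 + i1) * hi2 + (-x^2*i1*i2 - x*i1*i2) * hch)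
  obtain ⟨h12, e12⟩ := add_some_of_line' 0 2 0 0 2 h1 h11 hx2 ((x*y)*i1) ((x^2 + 1)*i1) (((2*x^2 + x + 1)*y)*i1^2)
    (by linear_combination (-x*y*i1 - y*i1) * hE + (y^3 + y) * hi1 + (-x^3*y*i1 - x^2*y*i1 - x*y*i1 - y*i1) * hch)
    (by linear_combination (-x^2*i1^2) * hE + (-x^4*i1 - x^3*i1 - x^3 - 2*x^2*i1 - 3*x*i1 - x - 3*i1 - 2) * hi1 + (x^3*i1^2 + x^2*i1^2 + 2*x*i1^2 + i1^2) * hch)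
    (by linear_combination (x^2*y*i1^2 + 2*x*y*i1^2 + y*i1^2) * hE + (x^4*y*i1 - x*y^3*i1 - y^3*i1 - y^3) * hi1 + (x^4*y*i1^2 + 2*x^3*y*i1^2 + 2*x^2*y*i1^2 + 2*x*y*i1^2 + y*i1^2) * hch)
  have hy3 : 2 * (((2*x^2 + x + 1)*y)*i1^2) + 0 * ((x^2 + 1)*i1) + 0 ≠ 0 := ne_zero_of_mul_eq_one (b := ((x + 1)*y)*i4*i5) (by linear_combination (4*x^3*i1^2*i4*i5 + 6*x^2*i1^2*i4*i5 + 4*x*i1^2*i4*i5 + 2*i1^2*i4*i5) * hE + (x*i1 + i1 + 1) * hi1 + (x^2*i1^2 + 2*x*i1^2 + i1^2) * hi4 + (x^4*i1^2*i4 + 3*x^3*i1^2*i4 + 5*x^2*i1^2*i4 + 5*x*i1^2*i4 + 2*i1^2*i4) * hi5 + (x^6*i1^2*i4*i5 + 3*x^5*i1^2*i4*i5 + x^4*i1^2*i4*i5 - x^3*i1^2*i4*i5 - 2*x^2*i1^2*i4*i5 - 2*x*i1^2*i4*i5) * hch)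
  obtain ⟨h13, e13⟩ := dbl_some_of_line' 0 2 0 0 2 h12 hy3 (((x^2 + 1)*y)*i4*i5) ((x^8 + x^6 + 2*x^5 + 2*x^4 + x^3 + 2*x + 2)*i1*i4*i5^2) (((x^12 + x^11 + x^10 + x^8 + x^7 + 2*x^6 + 2*x^4 + 2*x^3 + 2*x^2 + 2*x + 1)*y)*i1^2*i4^2*i5^3)
    (by linear_combination (4*x^4*i1^2*i4*i5 + 2*x^3*i1^2*i4*i5 + 6*x^2*i1^2*i4*i5 + 2*x*i1^2*i4*i5 + 2*i1^2*i4*i5) * hE + (4*x^2*i1 + 4*i1) * hi1 + (3*x^4*i1^2 + 4*x^3*i1^2 + 10*x^2*i1^2 + 4*x*i1^2 + 7*i1^2) * hi4 + (3*x^6*i1^2*i4 + 7*x^5*i1^2*i4 + 20*x^4*i1^2*i4 + 22*x^3*i1^2*i4 + 31*x^2*i1^2*i4 + 15*x*i1^2*i4 + 14*i1^2*i4) * hi5 + (-x^8*i1^2*i4*i5 - 3*x^7*i1^2*i4*i5 - 10*x^6*i1^2*i4*i5 - 22*x^5*i1^2*i4*i5 - 31*x^4*i1^2*i4*i5 - 37*x^3*i1^2*i4*i5 - 30*x^2*i1^2*i4*i5 - 18*x*i1^2*i4*i5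 - 8*i1^2*i4*i5) * hch)
    (by linear_combination (-x^5*i1*i4^2*i5^2 - x^4*i1*i4^2*i5^2 - 2*x^3*i1*i4^2*i5^2 - 2*x^2*i1*i4^2*i5^2 - x*i1*i4^2*i5^2 - i1*i4^2*i5^2) * hE + (x^4*y^2*i4^2*i5^2 + 2*x^2*y^2*i4^2*i5^2 + y^2*i4^2*i5^2 - 2) * hi1 + (-x^8*i1*i4*i5^2 - x^6*i1*i4*i5^2 - 2*x^5*i1*i4*i5^2 - 2*x^4*i1*i4*i5^2 - 2*x^4*i1*i4 - x^3*i1*i4*i5^2 - 4*x^3*i1*i4 - 10*x^2*i1*i4 - 2*x^2*i1 - 2*x*i1*i4*i5^2 - 8*x*i1*i4 - 2*x*i1 - 2*i1*i4*i5^2 - 8*i1*i4 - 4*i1) * hi4 + (-2*x^8*i1*i4^2*i5 - 10*x^7*i1*i4^2*i5 - 34*x^6*i1*i4^2*i5 - 2*x^6*i1*i4^2 - 74*x^5*i1*i4^2*i5 - 6*x^5*i1*i4^2 - 124*x^4*i1*i4^2*i5 - 18*x^4*i1*i4^2 - 148*x^3*i1*i4^2*i5 - 26*x^3*i1*i4^2 - 136*x^2*i1*i4^2*i5 - 36*x^2*i1*i4^2 - 80*x*i1*i4^2*i5 - 24*x*i1*i4^2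 - 32*i1*i4^2*i5 - 16*i1*i4^2) * hi5 + (x^10*i1*i4^2*i5^2 + 5*x^9*i1*i4^2*i5^2 + 20*x^8*i1*i4^2*i5^2 + 54*x^7*i1*i4^2*i5^2 + 114*x^6*i1*i4^2*i5^2 + 181*x^5*i1*i4^2*i5^2 + 226*x^4*i1*i4^2*i5^2 + 215*x^3*i1*i4^2*i5^2 + 154*x^2*i1*i4^2*i5^2 + 76*x*i1*i4^2*i5^2 + 22*i1*i4^2*i5^2) * hch)
    (by linear_combination (-x^10*y*i1*i4^2*i5^3 - 2*x^8*y*i1*i4^2*i5^3 - 2*x^7*y*i1*i4^2*i5^3 - 3*x^6*y*i1*i4^2*i5^3 - 3*x^5*y*i1*i4^2*i5^3 - 2*x^4*y*i1*i4^2*i5^3 + x^4*y*i1*i4*i5 - 3*x^3*y*i1*i4^2*i5^3 - 2*x^2*y*i1*i4^2*i5^3 + 2*x^2*y*i1*i4*i5 - 2*x*y*i1*i4^2*i5^3 - 2*y*i1*i4^2*i5^3 + y*i1*i4*i5) * hi1 + (x^5*y*i1^2*i4*i5 + x^4*y*i1^2*i4*i5 - 2*x^4*y*i1^2*i4 + 2*x^3*y*i1^2*i4*i5 - 3*x^3*y*i1^2*i4 + 2*x^2*y*i1^2*i4*i5 - 6*x^2*y*i1^2*i4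 - 2*x^2*y*i1^2 + x*y*i1^2*i4*i5 - 3*x*y*i1^2*i4 - x*y*i1^2 + y*i1^2*i4*i5 - 2*y*i1^2*i4 - y*i1^2) * hi4 + (-2*x^10*y*i1^2*i4^2*i5^2 - 12*x^9*y*i1^2*i4^2*i5^2 - 45*x^8*y*i1^2*i4^2*i5^2 - 2*x^8*y*i1^2*i4^2*i5 - 112*x^7*y*i1^2*i4^2*i5^2 - 8*x^7*y*i1^2*i4^2*i5 - 209*x^6*y*i1^2*i4^2*i5^2 - 25*x^6*y*i1^2*i4^2*i5 - 2*x^6*y*i1^2*i4^2 - 291*x^5*y*i1^2*i4^2*i5^2 - 46*x^5*y*i1^2*i4^2*i5 - 5*x^5*y*i1^2*i4^2 - 312*x^4*y*i1^2*i4^2*i5^2 - 67*x^4*y*i1^2*i4^2*i5 - 13*x^4*y*i1^2*i4^2 - 247*x^3*y*i1^2*i4^2*i5^2 - 65*x^3*y*i1^2*i4^2*i5 - 15*x^3*y*i1^2*i4^2 - 144*x^2*y*i1^2*i4^2*i5^2 - 48*x^2*y*i1^2*i4^2*i5 - 17*x^2*y*i1^2*i4^2 - 54*x*y*i1^2*i4^2*i5^2 - 21*x*y*i1^2*i4^2*i5 - 8*x*y*i1^2*i4^2 - 12*y*i1^2*i4^2*i5^2 - 6*y*i1^2*i4^2*i5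 - 4*y*i1^2*i4^2) * hi5 + (x^12*y*i1^2*i4^2*i5^3 + 6*x^11*y*i1^2*i4^2*i5^3 + 25*x^10*y*i1^2*i4^2*i5^3 + 76*x^9*y*i1^2*i4^2*i5^3 + 176*x^8*y*i1^2*i4^2*i5^3 + 313*x^7*y*i1^2*i4^2*i5^3 + 440*x^6*y*i1^2*i4^2*i5^3 + 486*x^5*y*i1^2*i4^2*i5^3 + 423*x^4*y*i1^2*i4^2*i5^3 + 281*x^3*y*i1^2*i4^2*i5^3 + 138*x^2*y*i1^2*i4^2*i5^3 + 46*x*y*i1^2*i4^2*i5^3 + 9*y*i1^2*i4^2*i5^3) * hch)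
  have hx4 : (x ^ 3) ^ 3 ≠ x := ne_of_sub_mul_eq_one (b := 1*i1*i2*i3*i4*i5) (by linear_combination (1) * hi1 + (x*i1 + i1) * hi2 + (x^3*i1*i2 + 3*x^2*i1*i2 + 2*x*i1*i2) * hi3 + (x^5*i1*i2*i3 + 3*x^4*i1*i2*i3 + 3*x^3*i1*i2*i3 + 3*x^2*i1*i2*i3 + 2*x*i1*i2*i3) * hi4 + (x^7*i1*i2*i3*i4 + 4*x^6*i1*i2*i3*i4 + 8*x^5*i1*i2*i3*i4 + 12*x^4*i1*i2*i3*i4 + 11*x^3*i1*i2*i3*i4 + 8*x^2*i1*i2*i3*i4 + 4*x*i1*i2*i3*i4) * hi5 + (-2*x^8*i1*i2*i3*i4*i5 - 6*x^7*i1*i2*i3*i4*i5 - 12*x^6*i1*i2*i3*i4*i5 - 17*x^5*i1*i2*i3*i4*i5 - 18*x^4*i1*i2*i3*i4*i5 - 14*x^3*i1*i2*i3*i4*i5 - 8*x^2*i1*i2*i3*i4*i5 - 3*x*i1*i2*i3*i4*i5) * hch)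
  obtain ⟨h14, e14⟩ := add_some_of_line' 0 2 0 0 2 h2 h0 hx4 (((x^8 + 2*x^6 + x^5 + x^3 + 2*x)*y)*i1*i4*i5) ((x^8 + x^6 + 2*x^5 + 2*x^4 + x^3 + 2*x + 2)*i1*i4*i5^2) (((x^12 + x^11 + x^10 + x^8 + x^7 + 2*x^6 + 2*x^4 + 2*x^3 + 2*x^2 + 2*x + 1)*y)*i1^2*i4^2*i5^3)
    (by linear_combination (-x^14*y*i1*i4*i5 - 10*x^13*y*i1*i4*i5 - 45*x^12*y*i1*i4*i5 - x^11*y^3*i1*i4*i5 - 128*x^11*y*i1*i4*i5 - 8*x^10*y^3*i1*i4*i5 - 270*x^10*y*i1*i4*i5 - 29*x^9*y^3*i1*i4*i5 - 454*x^9*y*i1*i4*i5 - x^8*y^5*i1*i4*i5 - 68*x^8*y^3*i1*i4*i5 - 636*x^8*y*i1*i4*i5 - 6*x^7*y^5*i1*i4*i5 - 118*x^7*y^3*i1*i4*i5 - 764*x^7*y*i1*i4*i5 - 17*x^6*y^5*i1*i4*i5 - 160*x^6*y^3*i1*i4*i5 - 788*x^6*y*i1*i4*i5 - x^5*y^7*i1*i4*i5 - 32*x^5*y^5*i1*i4*i5 - 180*x^5*y^3*i1*i4*i5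 - 704*x^5*y*i1*i4*i5 - 4*x^4*y^7*i1*i4*i5 - 42*x^4*y^5*i1*i4*i5 - 168*x^4*y^3*i1*i4*i5 - 536*x^4*y*i1*i4*i5 - 9*x^3*y^7*i1*i4*i5 - 42*x^3*y^5*i1*i4*i5 - 132*x^3*y^3*i1*i4*i5 - 360*x^3*y*i1*i4*i5 - 12*x^2*y^7*i1*i4*i5 - 32*x^2*y^5*i1*i4*i5 - 80*x^2*y^3*i1*i4*i5 - 192*x^2*y*i1*i4*i5 - 10*x*y^7*i1*i4*i5 - 20*x*y^5*i1*i4*i5 - 40*x*y^3*i1*i4*i5 - 80*x*y*i1*i4*i5 - 4*y^7*i1*i4*i5 - 8*y^5*i1*i4*i5 - 16*y^3*i1*i4*i5 - 32*y*i1*i4*i5) * hE + (y^9 - y) * hi1 + (x*y^9*i1 - x*y*i1 + y^9*i1 - y*i1) * hi4 + (x^3*y^9*i1*i4 - x^3*y*i1*i4 + 2*x^2*y^9*i1*i4 - 2*x^2*y*i1*i4 + 3*x*y^9*i1*i4 - 3*x*y*i1*i4 + 2*y^9*i1*i4 - 2*y*i1*i4) * hi5 + (-4*x^16*y*i1*i4*i5 - 21*x^15*y*i1*i4*i5 - 73*x^14*y*i1*i4*i5 - 182*x^13*y*i1*i4*i5 - 361*x^12*y*i1*i4*i5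 - 600*x^11*y*i1*i4*i5 - 858*x^10*y*i1*i4*i5 - 1075*x^9*y*i1*i4*i5 - 1184*x^8*y*i1*i4*i5 - 1158*x^7*y*i1*i4*i5 - 1003*x^6*y*i1*i4*i5 - 773*x^5*y*i1*i4*i5 - 511*x^4*y*i1*i4*i5 - 301*x^3*y*i1*i4*i5 - 146*x^2*y*i1*i4*i5 - 50*x*y*i1*i4*i5 - 20*y*i1*i4*i5) * hch)
    (by linear_combination (-x^16*i1^2*i4^2*i5^2 - 4*x^14*i1^2*i4^2*i5^2 - 2*x^13*i1^2*i4^2*i5^2 - 4*x^12*i1^2*i4^2*i5^2 - 6*x^11*i1^2*i4^2*i5^2 - x^10*i1^2*i4^2*i5^2 - 8*x^9*i1^2*i4^2*i5^2 - 2*x^8*i1^2*i4^2*i5^2 - 8*x^7*i1^2*i4^2*i5^2 - 5*x^6*i1^2*i4^2*i5^2 - 4*x^4*i1^2*i4^2*i5^2 - 4*x^2*i1^2*i4^2*i5^2) * hE + (-x^10*i1 - x^9*i1 - x^9 - x^8*i1*i4*i5^2 - x^6*i1*i4*i5^2 - 2*x^5*i1*i4*i5^2 - 2*x^4*i1*i4*i5^2 - x^3*i1*i4*i5^2 - x^2*i1 - 2*x*i1*i4*i5^2 - 3*x*i1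 - x - 2*i1*i4*i5^2 - 2*i1 - 2) * hi1 + (-x^13*i1^2*i4 - 3*x^12*i1^2*i4 - 5*x^11*i1^2*i4 - x^11*i1^2 - 5*x^10*i1^2*i4 - 2*x^10*i1^2 - x^9*i1^2*i4*i5^2 - 2*x^9*i1^2*i4 - x^9*i1^2 - x^8*i1^2*i4*i5^2 - x^7*i1^2*i4*i5^2 - 3*x^6*i1^2*i4*i5^2 - 4*x^5*i1^2*i4*i5^2 - x^5*i1^2*i4 - 3*x^4*i1^2*i4*i5^2 - 5*x^4*i1^2*i4 - x^3*i1^2*i4*i5^2 - 11*x^3*i1^2*i4 - x^3*i1^2 - 2*x^2*i1^2*i4*i5^2 - 15*x^2*i1^2*i4 - 4*x^2*i1^2 - 4*x*i1^2*i4*i5^2 - 12*x*i1^2*i4 - 5*x*i1^2 - 2*i1^2*i4*i5^2 - 4*i1^2*i4 - 2*i1^2) * hi4 + (-x^17*i1^2*i4^2*i5 - 6*x^16*i1^2*i4^2*i5 - 20*x^15*i1^2*i4^2*i5 - x^15*i1^2*i4^2 - 44*x^14*i1^2*i4^2*i5 - 4*x^14*i1^2*i4^2 - 69*x^13*i1^2*i4^2*i5 - 10*x^13*i1^2*i4^2 - 78*x^12*i1^2*i4^2*i5 - 16*x^12*i1^2*i4^2 - 62*x^11*i1^2*i4^2*i5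 - 17*x^11*i1^2*i4^2 - 32*x^10*i1^2*i4^2*i5 - 12*x^10*i1^2*i4^2 - 9*x^9*i1^2*i4^2*i5 - 4*x^9*i1^2*i4^2 - 8*x^8*i1^2*i4^2*i5 - 32*x^7*i1^2*i4^2*i5 - x^7*i1^2*i4^2 - 84*x^6*i1^2*i4^2*i5 - 6*x^6*i1^2*i4^2 - 157*x^5*i1^2*i4^2*i5 - 18*x^5*i1^2*i4^2 - 216*x^4*i1^2*i4^2*i5 - 36*x^4*i1^2*i4^2 - 218*x^3*i1^2*i4^2*i5 - 49*x^3*i1^2*i4^2 - 156*x^2*i1^2*i4^2*i5 - 46*x^2*i1^2*i4^2 - 72*x*i1^2*i4^2*i5 - 28*x*i1^2*i4^2 - 16*i1^2*i4^2*i5 - 8*i1^2*i4^2) * hi5 + (2*x^18*i1^2*i4^2*i5^2 + 10*x^17*i1^2*i4^2*i5^2 + 28*x^16*i1^2*i4^2*i5^2 + 63*x^15*i1^2*i4^2*i5^2 + 94*x^14*i1^2*i4^2*i5^2 + 113*x^13*i1^2*i4^2*i5^2 + 98*x^12*i1^2*i4^2*i5^2 + 56*x^11*i1^2*i4^2*i5^2 + 26*x^10*i1^2*i4^2*i5^2 + 11*x^9*i1^2*i4^2*i5^2 + 52*x^8*i1^2*i4^2*i5^2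 + 126*x^7*i1^2*i4^2*i5^2 + 231*x^6*i1^2*i4^2*i5^2 + 324*x^5*i1^2*i4^2*i5^2 + 339*x^4*i1^2*i4^2*i5^2 + 276*x^3*i1^2*i4^2*i5^2 + 158*x^2*i1^2*i4^2*i5^2 + 62*x*i1^2*i4^2*i5^2 + 12*i1^2*i4^2*i5^2) * hch)
    (by linear_combination (x^21*y*i1^2*i4^2*i5^3 + 16*x^20*y*i1^2*i4^2*i5^3 + 124*x^19*y*i1^2*i4^2*i5^3 + x^18*y^3*i1^2*i4^2*i5^3 + 626*x^18*y*i1^2*i4^2*i5^3 + 14*x^17*y^3*i1^2*i4^2*i5^3 + 2325*x^17*y*i1^2*i4^2*i5^3 + 96*x^16*y^3*i1^2*i4^2*i5^3 + 6784*x^16*y*i1^2*i4^2*i5^3 + x^15*y^5*i1^2*i4^2*i5^3 + 432*x^15*y^3*i1^2*i4^2*i5^3 + 16202*x^15*y*i1^2*i4^2*i5^3 + 12*x^14*y^5*i1^2*i4^2*i5^3 + 1433*x^14*y^3*i1^2*i4^2*i5^3 + 32570*x^14*y*i1^2*i4^2*i5^3 + 72*x^13*y^5*i1^2*i4^2*i5^3 + 3726*x^13*y^3*i1^2*i4^2*i5^3 + 56232*x^13*y*i1^2*i4^2*i5^3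 + x^12*y^7*i1^2*i4^2*i5^3 + 286*x^12*y^5*i1^2*i4^2*i5^3 + 7886*x^12*y^3*i1^2*i4^2*i5^3 + 84628*x^12*y*i1^2*i4^2*i5^3 + 10*x^11*y^7*i1^2*i4^2*i5^3 + 837*x^11*y^5*i1^2*i4^2*i5^3 + 13932*x^11*y^3*i1^2*i4^2*i5^3 + 112212*x^11*y*i1^2*i4^2*i5^3 + 52*x^10*y^7*i1^2*i4^2*i5^3 + 1908*x^10*y^5*i1^2*i4^2*i5^3 + 20916*x^10*y^3*i1^2*i4^2*i5^3 + 132024*x^10*y*i1^2*i4^2*i5^3 + 180*x^9*y^7*i1^2*i4^2*i5^3 + 3498*x^9*y^5*i1^2*i4^2*i5^3 + 27024*x^9*y^3*i1^2*i4^2*i5^3 + 138376*x^9*y*i1^2*i4^2*i5^3 + 457*x^8*y^7*i1^2*i4^2*i5^3 + 5262*x^8*y^5*i1^2*i4^2*i5^3 + 30300*x^8*y^3*i1^2*i4^2*i5^3 + 129352*x^8*y*i1^2*i4^2*i5^3 + 890*x^7*y^7*i1^2*i4^2*i5^3 + 6576*x^7*y^5*i1^2*i4^2*i5^3 + 29592*x^7*y^3*i1^2*i4^2*i5^3 + 107680*x^7*y*i1^2*i4^2*i5^3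 + 1358*x^6*y^7*i1^2*i4^2*i5^3 + 6876*x^6*y^5*i1^2*i4^2*i5^3 + 25144*x^6*y^3*i1^2*i4^2*i5^3 + 79472*x^6*y*i1^2*i4^2*i5^3 + 1632*x^5*y^7*i1^2*i4^2*i5^3 + 6024*x^5*y^5*i1^2*i4^2*i5^3 + 18464*x^5*y^3*i1^2*i4^2*i5^3 + 51552*x^5*y*i1^2*i4^2*i5^3 + 1532*x^4*y^7*i1^2*i4^2*i5^3 + 4392*x^4*y^5*i1^2*i4^2*i5^3 + 11568*x^4*y^3*i1^2*i4^2*i5^3 + 28960*x^4*y*i1^2*i4^2*i5^3 + 1096*x^3*y^7*i1^2*i4^2*i5^3 + 2608*x^3*y^5*i1^2*i4^2*i5^3 + 6048*x^3*y^3*i1^2*i4^2*i5^3 + 13760*x^3*y*i1^2*i4^2*i5^3 + 568*x^2*y^7*i1^2*i4^2*i5^3 + 1200*x^2*y^5*i1^2*i4^2*i5^3 + 2528*x^2*y^3*i1^2*i4^2*i5^3 + 5312*x^2*y*i1^2*i4^2*i5^3 + 192*x*y^7*i1^2*i4^2*i5^3 + 384*x*y^5*i1^2*i4^2*i5^3 + 768*x*y^3*i1^2*i4^2*i5^3 + 1536*x*y*i1^2*i4^2*i5^3 + 32*y^7*i1^2*i4^2*i5^3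 + 64*y^5*i1^2*i4^2*i5^3 + 128*y^3*i1^2*i4^2*i5^3 + 256*y*i1^2*i4^2*i5^3) * hE + (x^17*y*i1*i4*i5 + 2*x^15*y*i1*i4*i5 + x^14*y*i1*i4*i5 + x^12*y*i1*i4*i5 + 2*x^10*y*i1*i4*i5 - x*y^9*i1 - y^9*i1 - y^9) * hi1 + (x^18*y*i1^2*i4*i5 + x^17*y*i1^2*i4*i5 + 2*x^16*y*i1^2*i4*i5 + 3*x^15*y*i1^2*i4*i5 + x^14*y*i1^2*i4*i5 + x^13*y*i1^2*i4*i5 + x^12*y*i1^2*i4*i5 + 2*x^11*y*i1^2*i4*i5 + 2*x^10*y*i1^2*i4*i5 - x^4*y^9*i1^2*i4 - 3*x^3*y^9*i1^2*i4 - 5*x^2*y^9*i1^2*i4 - x^2*y^9*i1^2 - 5*x*y^9*i1^2*i4 - 2*x*y^9*i1^2 - 2*y^9*i1^2*i4 - y^9*i1^2) * hi4 + (x^22*y*i1^2*i4^2*i5^2 + 4*x^21*y*i1^2*i4^2*i5^2 + 11*x^20*y*i1^2*i4^2*i5^2 + x^20*y*i1^2*i4^2*i5 + 21*x^19*y*i1^2*i4^2*i5^2 + 2*x^19*y*i1^2*i4^2*i5 + 32*x^18*y*i1^2*i4^2*i5^2 +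 5*x^18*y*i1^2*i4^2*i5 + 38*x^17*y*i1^2*i4^2*i5^2 + 7*x^17*y*i1^2*i4^2*i5 + 36*x^16*y*i1^2*i4^2*i5^2 + 8*x^16*y*i1^2*i4^2*i5 + 29*x^15*y*i1^2*i4^2*i5^2 + 8*x^15*y*i1^2*i4^2*i5 + 24*x^14*y*i1^2*i4^2*i5^2 + 4*x^14*y*i1^2*i4^2*i5 + 28*x^13*y*i1^2*i4^2*i5^2 + 5*x^13*y*i1^2*i4^2*i5 + 28*x^12*y*i1^2*i4^2*i5^2 + 6*x^12*y*i1^2*i4^2*i5 + 20*x^11*y*i1^2*i4^2*i5^2 + 6*x^11*y*i1^2*i4^2*i5 - x^10*y^9*i1^2*i4^2*i5^2 + 8*x^10*y*i1^2*i4^2*i5^2 + 4*x^10*y*i1^2*i4^2*i5 - 8*x^9*y^9*i1^2*i4^2*i5^2 - 34*x^8*y^9*i1^2*i4^2*i5^2 - x^8*y^9*i1^2*i4^2*i5 - 96*x^7*y^9*i1^2*i4^2*i5^2 - 6*x^7*y^9*i1^2*i4^2*i5 - 197*x^6*y^9*i1^2*i4^2*i5^2 - 20*x^6*y^9*i1^2*i4^2*i5 - x^6*y^9*i1^2*i4^2 - 304*x^5*y^9*i1^2*i4^2*i5^2 - 44*x^5*y^9*i1^2*i4^2*i5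 - 4*x^5*y^9*i1^2*i4^2 - 356*x^4*y^9*i1^2*i4^2*i5^2 - 69*x^4*y^9*i1^2*i4^2*i5 - 10*x^4*y^9*i1^2*i4^2 - 312*x^3*y^9*i1^2*i4^2*i5^2 - 78*x^3*y^9*i1^2*i4^2*i5 - 16*x^3*y^9*i1^2*i4^2 - 196*x^2*y^9*i1^2*i4^2*i5^2 - 62*x^2*y^9*i1^2*i4^2*i5 - 17*x^2*y^9*i1^2*i4^2 - 80*x*y^9*i1^2*i4^2*i5^2 - 32*x*y^9*i1^2*i4^2*i5 - 12*x*y^9*i1^2*i4^2 - 16*y^9*i1^2*i4^2*i5^2 - 8*y^9*i1^2*i4^2*i5 - 4*y^9*i1^2*i4^2) * hi5 + (4*x^23*y*i1^2*i4^2*i5^3 + 45*x^22*y*i1^2*i4^2*i5^3 + 275*x^21*y*i1^2*i4^2*i5^3 + 1171*x^20*y*i1^2*i4^2*i5^3 + 3846*x^19*y*i1^2*i4^2*i5^3 + 10282*x^18*y*i1^2*i4^2*i5^3 + 23149*x^17*y*i1^2*i4^2*i5^3 + 44929*x^16*y*i1^2*i4^2*i5^3 + 76454*x^15*y*i1^2*i4^2*i5^3 + 115493*x^14*y*i1^2*i4^2*i5^3 + 156261*x^13*y*i1^2*i4^2*i5^3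 + 190527*x^12*y*i1^2*i4^2*i5^3 + 210160*x^11*y*i1^2*i4^2*i5^3 + 210141*x^10*y*i1^2*i4^2*i5^3 + 190531*x^9*y*i1^2*i4^2*i5^3 + 156402*x^8*y*i1^2*i4^2*i5^3 + 115811*x^7*y*i1^2*i4^2*i5^3 + 76879*x^6*y*i1^2*i4^2*i5^3 + 45314*x^5*y*i1^2*i4^2*i5^3 + 23362*x^4*y*i1^2*i4^2*i5^3 + 10284*x^3*y*i1^2*i4^2*i5^3 + 3714*x^2*y*i1^2*i4^2*i5^3 + 1026*x*y*i1^2*i4^2*i5^3 + 171*y*i1^2*i4^2*i5^3) * hch)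
  have e15 : Point.some _ _ h13 = Point.some _ _ h14 := some_eq_some _ h13 h14
    (by ring)
    (by ring)
  exact fin_3_2 _ _ _ (by rw [e11, e12, e13, e14, e15])

theorem bad_c3d (K : Type*) [Field K] : {x : K | ¬ (x + 1 ≠ 0 ∧ x^2 + 2*x ≠ 0 ∧ x^2 + 1 ≠ 0 ∧ x^2 + x + 2 ≠ 0 ∧ x^2 + 2*x + 2 ≠ 0)}.Finite := by
  have f1 : {x : K | x + 1 = 0}.Finite :=
    (finite_eval_eq_zero (X + 1 : K[X]) (Monic.ne_zero (by monicity!))).subset (fun x hx => by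
      show Polynomial.eval x (X + 1 : K[X]) = 0
      simp only [eval_add, eval_mul, eval_pow, eval_X, eval_one, eval_ofNat]
      exact hx)
  have f2 : {x : K | x^2 + 2*x = 0}.Finite :=
    (finite_eval_eq_zero (X^2 + 2*X : K[X]) (Monic.ne_zero (by monicity!))).subset (fun x hx => by
      show Polynomial.eval x (X^2 + 2*X : K[X]) = 0
      simp only [eval_add, eval_mul, eval_pow, eval_X, eval_one, eval_ofNat]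
      exact hx)
  have f3 : {x : K | x^2 + 1 = 0}.Finite :=
    (finite_eval_eq_zero (X^2 + 1 : K[X]) (Monic.ne_zero (by monicity!))).subset (fun x hx => by
      show Polynomial.eval x (X^2 + 1 : K[X]) = 0
      simp only [eval_add, eval_mul, eval_pow, eval_X, eval_one, eval_ofNat]
      exact hx)
  have f4 : {x : K | x^2 + x + 2 = 0}.Finite :=
    (finite_eval_eq_zero (X^2 + X + 2 : K[X]) (Monic.ne_zero (by monicity!))).subset (fun x hx => by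
      show Polynomial.eval x (X^2 + X + 2 : K[X]) = 0
      simp only [eval_add, eval_mul, eval_pow, eval_X, eval_one, eval_ofNat]
      exact hx)
  have f5 : {x : K | x^2 + 2*x + 2 = 0}.Finite :=
    (finite_eval_eq_zero (X^2 + 2*X + 2 : K[X]) (Monic.ne_zero (by monicity!))).subset (fun x hx => by
      show Polynomial.eval x (X^2 + 2*X + 2 : K[X]) = 0
      simp only [eval_add, eval_mul, eval_pow, eval_X, eval_one, eval_ofNat]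
      exact hx)
  refine (f1.union (f2.union (f3.union (f4.union f5)))).subset (fun x hx => ?_)
  by_contra hcon
  exact hx ⟨fun h => hcon (Or.inl h), fun h => hcon (Or.inr (Or.inl h)), fun h => hcon (Or.inr (Or.inr (Or.inl h))), fun h => hcon (Or.inr (Or.inr (Or.inr (Or.inl h)))), fun h => hcon (Or.inr (Or.inr (Or.inr (Or.inr h))))⟩

theorem frobRelAt_c3d (K : Type) [Field K] [DecidableEq K] [Algebra (ZMod 3) K] [IsAlgClosed K] :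
    FrobRelAt 3 K (mkC (0 : ZMod 3) 2 0 0 2) (2) := by
  have hch : (3 : K) = 0 := three_eq_zero_of_algebra K
  exact frobRelAt_of_generic 3 K _ (by decide) (2) 3 rfl 0 2 0 0 2
    (by ext <;> simp [WeierstrassCurve.baseChange, map_ofNat])
    (fun x => x + 1 ≠ 0 ∧ x^2 + 2*x ≠ 0 ∧ x^2 + 1 ≠ 0 ∧ x^2 + x + 2 ≠ 0 ∧ x^2 + 2*x + 2 ≠ 0) (bad_c3d K)
    (fun x y h0 h1 h2 hg => gen_c3d hch x y h0 h1 h2 hg.1 hg.2.1 hg.2.2.1 hg.2.2.2.1 hg.2.2.2.2)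

theorem trace_c3d : (mkC (0 : ZMod 3) 2 0 0 2).traceOfFrobenius = 2 := by
  rw [trace_eq_of_count _ (by decide) 1 (by decide)]
  norm_num

end Fermat.Agent.S58.FrobSmall
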