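import Fermat.Agent.S58.FrobSmall.Small
import Fermat.Agent.S41.NonEis.FrobRel

/-!
# S58, brick (B2) FROB23: the Frobenius relation on torsion points at the primes 2 and 3

`E / ℚ` an elliptic curve with integral model `W`, `ℓ` a prime of good reduction of `W`
(`ℓ ∈ {2, 3}` in `frobenius_relation23`, arbitrary in `frobenius_relation_all`), `A` a place of
`Qb = AlgebraicClosure ℚ` over `ℓ`, `σ` a Frobenius element at `A`, `n` prime to `ℓ`.  Then

  `σ • σ • P - a_ℓ(W) • σ • P + ℓ • P = 0`  for every `P ∈ E(Qb)` with `n • P = 0`.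

For `ℓ ≥ 5` this is `S41.NonEis.FrobRel.frobenius_relation` (short model + brick (Tr) of S52).
For `ℓ ∈ {2, 3}` the model `W` itself has good reduction; the `n`-torsion reduces injectively
(`S41.NonEis.Reduce`) to the reduced curve `W mod ℓ` over the algebraically closed residue field,
where the relation is `frobRel_small`.
-/

set_option autoImplicit false

namespace Fermat.Agent.S58.FrobSmall

open WeierstrassCurve WeierstrassCurve.Affine Fermat.Agent.S05.VarChange Fermat.Agent.S52.Tr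
  Fermat.Agent.S41.NonEis

local notation "Qb" => AlgebraicClosure ℚ

section Packages

/-- The Frobenius endomorphism and its quadratic relation on any curve equal to the base change
of an elliptic curve over `ZMod ℓ`, `ℓ ∈ {2, 3}`. -/
theorem exists_frob23 (ℓ : ℕ) [Fact ℓ.Prime] (h23 : ℓ = 2 ∨ ℓ = 3) (k : Type) [Field k]
    [DecidableEq k] [Algebra (ZMod ℓ) k] [IsAlgClosed k] (E : WeierstrassCurve (ZMod ℓ))
    (hΔ : E.Δ ≠ 0) (V : Affine k) (hV : V = (E.baseChange k).toAffine) :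
    ∃ φ : V.Point →+ V.Point,
      (∀ (x y : k) (h : V.Nonsingular x y), ∃ h' : V.Nonsingular (x ^ ℓ) (y ^ ℓ),
        φ (.some x y h) = .some (x ^ ℓ) (y ^ ℓ) h') ∧
      ∀ P : V.Point, φ (φ P) - E.traceOfFrobenius • φ P + (ℓ : ℤ) • P = 0 := by
  subst hV
  exact ⟨Consumer.frobBC ℓ k E, fun x y h => ⟨_, frobBC_some ℓ k E h⟩,
    frobRel_small ℓ h23 k E hΔ⟩

end Packages

section Main

variable (W : WeierstrassCurve ℤ) (A : ValuationSubring Qb)

/-- The model over the valuation ring. -/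
noncomputable abbrev WA23 : WeierstrassCurve A := W.map (algebraMap ℤ A)

variable {A} in
lemma isUnit_WA23_Δ {ℓ : ℕ} (hℓ : ℓ.Prime) (hgood : W.IsGoodPrimeFor ℓ)
    (hA : A.LiesOverPrime ℓ) : IsUnit (WA23 W A).Δ := by
  rw [WeierstrassCurve.map_Δ, eq_intCast]
  exact Basics.isUnit_intCast hℓ hA hgood

lemma model_eq_WK :
    ((W.map (Int.castRingHom ℚ)).toAffine⁄Qb) = Reduce.WK A (WA23 W A) := by
  ext <;> simp [WA23, WeierstrassCurve.baseChange]

lemma reduced_eq23 {ℓ : ℕ} [Fact ℓ.Prime] [Algebra (ZMod ℓ) (IsLocalRing.ResidueField A)] :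
    Reduce.Wk A (WA23 W A)
      = ((W.reductionMod ℓ).baseChange (IsLocalRing.ResidueField A)).toAffine := by
  ext <;> simp [WA23, WeierstrassCurve.baseChange, WeierstrassCurve.reductionMod]

variable {A}

/-- The Frobenius relation on the prime-to-`ℓ` torsion of the model `W`, `ℓ ∈ {2, 3}`. -/
theorem frobenius_relation_model23 {ℓ n : ℕ} (hℓ : ℓ.Prime) (h23 : ℓ = 2 ∨ ℓ = 3)
    (hgood : W.IsGoodPrimeFor ℓ) (hn : ¬ ℓ ∣ n) (hA : A.LiesOverPrime ℓ) (σ : Qb ≃ₐ[ℚ] Qb)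
    (hσ : A.IsFrobeniusAt σ ℓ) (P : ((W.map (Int.castRingHom ℚ)).toAffine⁄Qb).Point)
    (hP : n • P = 0) :
    σ • σ • P - W.apOfModel ℓ • σ • P + (ℓ : ℤ) • P = 0 := by
  classical
  have : Fact ℓ.Prime := ⟨hℓ⟩
  have : CharP (IsLocalRing.ResidueField A) ℓ := Basics.charP_residueField hℓ hA
  let _ : Algebra (ZMod ℓ) (IsLocalRing.ResidueField A) := ZMod.algebra _ ℓ
  have : IsAlgClosed (IsLocalRing.ResidueField A) := Basics.isAlgClosed_residueField A
  have hnv : A.valuation (n : Qb) = 1 := Basics.valuation_natCast_eq_one hℓ hA hn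
  have hΔ := isUnit_WA23_Δ W hℓ hgood hA
  obtain ⟨ρ, hρinj, hρ⟩ := FrobRel.exists_red A (WA23 W A) hΔ hnv
    ((W.map (Int.castRingHom ℚ)).toAffine⁄Qb) (model_eq_WK W A)
  obtain ⟨φ, hφ, hφrel⟩ := exists_frob23 ℓ h23 (IsLocalRing.ResidueField A)
    (W.reductionMod ℓ) (ShortForm.reductionMod_Δ_ne_zero ℓ W hgood)
    (Reduce.Wk A (WA23 W A)) (reduced_eq23 W A)
  have hap : W.apOfModel ℓ = (W.reductionMod ℓ).traceOfFrobenius := rfl
  rw [hap]
  let s : ((W.map (Int.castRingHom ℚ)).toAffine⁄Qb).Point →+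
      ((W.map (Int.castRingHom ℚ)).toAffine⁄Qb).Point := DistribSMul.toAddMonoidHom _ σ
  have hsT : ∀ Q ∈ (nsmulAddMonoidHom
      (α := ((W.map (Int.castRingHom ℚ)).toAffine⁄Qb).Point) n).ker,
      s Q ∈ (nsmulAddMonoidHom (α := ((W.map (Int.castRingHom ℚ)).toAffine⁄Qb).Point) n).ker := by
    intro Q hQ
    have hQ' : n • Q = 0 := hQ
    change n • s Q = 0
    rw [← map_nsmul, hQ', map_zero]
  refine FrobRel.rel_of_reduction
    (nsmulAddMonoidHom (α := ((W.map (Int.castRingHom ℚ)).toAffine⁄Qb).Point) n).ker ρ hρinj φ _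
    (ℓ : ℤ) hφrel s hsT ?_ P hP
  intro Q hQ
  rcases Q with _ | ⟨x, y, h⟩
  · have e1 : (⟨s Point.zero, hsT _ hQ⟩ :
        (nsmulAddMonoidHom (α := ((W.map (Int.castRingHom ℚ)).toAffine⁄Qb).Point) n).ker) = 0 :=
      Subtype.ext (map_zero s)
    have e2 : (⟨Point.zero, hQ⟩ :
        (nsmulAddMonoidHom (α := ((W.map (Int.castRingHom ℚ)).toAffine⁄Qb).Point) n).ker) = 0 :=
      rfl
    rw [e1, e2, map_zero, map_zero]
  · obtain ⟨hx, hy, h', e⟩ := hρ x y h hQ
    have hs1 : s (Point.some x y h) = Point.some (σ x) (σ y) _ := Point.map_some σ.toAlgHom h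
    have h4 : n • Point.some (σ x) (σ y)
        ((WeierstrassCurve.Affine.baseChange_nonsingular _ σ.toAlgHom.injective x y).mpr h) = 0 := by
      rw [← hs1]; exact hsT _ hQ
    have e3 : (⟨s (Point.some x y h), hsT _ hQ⟩ :
        (nsmulAddMonoidHom (α := ((W.map (Int.castRingHom ℚ)).toAffine⁄Qb).Point) n).ker)
          = ⟨Point.some (σ x) (σ y) _, h4⟩ :=
      Subtype.ext hs1
    obtain ⟨hx2, hy2, h2', e2⟩ := hρ (σ x) (σ y) _ h4
    rw [e3, e2, e]
    obtain ⟨h'', e4⟩ := hφ _ _ h'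
    rw [e4]
    obtain ⟨hx3, ex⟩ := Basics.frobenius_coord hσ ⟨x, hx⟩
    obtain ⟨hy3, ey⟩ := Basics.frobenius_coord hσ ⟨y, hy⟩
    exact Reduce.some_congr _ _ ex ey

/-- **Frobenius relation on torsion points at `ℓ ∈ {2, 3}`.**  `E / ℚ` with integral model `W`,
`ℓ ∈ {2, 3}` a good prime of `W`, `σ` a Frobenius element at a place `A` over `ℓ`, `n` prime to
`ℓ`: on the points of `E(Qb)` killed by `n`, `σ² - a_ℓ(W) σ + ℓ = 0`. -/
theorem frobenius_relation23 (E : WeierstrassCurve ℚ) {W : WeierstrassCurve ℤ}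
    (hW : W.IsIntegralModelOf E) {ℓ n : ℕ} (hℓ : ℓ.Prime) (h23 : ℓ = 2 ∨ ℓ = 3)
    (hgood : W.IsGoodPrimeFor ℓ) (hn : ¬ ℓ ∣ n) {A : ValuationSubring Qb}
    (hA : A.LiesOverPrime ℓ) (σ : Qb ≃ₐ[ℚ] Qb) (hσ : A.IsFrobeniusAt σ ℓ)
    (P : (E⁄Qb).Point) (hP : n • P = 0) :
    σ • σ • P - W.apOfModel ℓ • σ • P + (ℓ : ℤ) • P = 0 := by
  obtain ⟨C, hC⟩ := hW
  have H1 : Rel E.toAffine (W.map (Int.castRingHom ℚ)).toAffine (C.u : ℚ) C.r C.s C.t := by
    rw [← hC]; exact Basics.rel_variableChange E C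
  have H1' := Basics.rel_baseChange (K := Qb) H1
  obtain ⟨P', rfl⟩ := Fermat.Agent.S52.Glue.Rel.pointMap_surjective H1' P
  have hP' : n • P' = 0 := by
    apply H1'.pointMap_injective
    have h1 : H1'.pointMap (n • P') = n • H1'.pointMap P' := by
      change H1'.pointHom (n • P') = n • H1'.pointHom P'
      rw [map_nsmul]
    rw [h1, hP]
    rfl
  have key := frobenius_relation_model23 W hℓ h23 hgood hn hA σ hσ P' hP'
  have e1 : ∀ Q, H1'.pointHom (σ • Q) = σ • H1'.pointHom Q := by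
    intro Q
    change H1'.pointMap (σ • Q) = σ • H1'.pointMap Q
    rw [Basics.pointMap_smul H1 σ]
  have key2 := congrArg (fun Q => H1'.pointHom Q) key
  simp only [map_add, map_sub, map_zsmul, map_zero, e1] at key2
  exact key2

/-- **Frobenius relation on torsion points at every good prime.**  `E / ℚ` with integral model
`W`, `ℓ` any prime of good reduction of `W`, `σ` a Frobenius element at a place `A` over `ℓ`,
`n` prime to `ℓ`: on the points of `E(Qb)` killed by `n`, `σ² - a_ℓ(W) σ + ℓ = 0`. -/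
theorem frobenius_relation_all (E : WeierstrassCurve ℚ) {W : WeierstrassCurve ℤ}
    (hW : W.IsIntegralModelOf E) {ℓ n : ℕ} (hℓ : ℓ.Prime)
    (hgood : W.IsGoodPrimeFor ℓ) (hn : ¬ ℓ ∣ n) {A : ValuationSubring Qb}
    (hA : A.LiesOverPrime ℓ) (σ : Qb ≃ₐ[ℚ] Qb) (hσ : A.IsFrobeniusAt σ ℓ)
    (P : (E⁄Qb).Point) (hP : n • P = 0) :
    σ • σ • P - W.apOfModel ℓ • σ • P + (ℓ : ℤ) • P = 0 := by
  by_cases h5 : 5 ≤ ℓ
  · exact FrobRel.frobenius_relation E hW hℓ h5 hgood hn hA σ hσ P hP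
  · have h23 : ℓ = 2 ∨ ℓ = 3 := by
      have h2 := hℓ.two_le
      have h4 : ℓ ≠ 4 := by
        rintro rfl
        exact absurd hℓ (by decide)
      omega
    exact frobenius_relation23 E hW hℓ h23 hgood hn hA σ hσ P hP

end Main

end Fermat.Agent.S58.FrobSmall
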