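import Mathlib

/-!
# S58, brick (B2) FROB23: chord and tangent steps with an explicit line

Division-free forms of the affine group law of a Weierstrass curve over a field: if the chord
through two points with different `x`-coordinates (or the tangent at a point which is not
2-torsion) has slope `L`, the sum is the point with the coordinates given by the usual formulas.
All hypotheses are polynomial identities, so that in applications they are closed by
`linear_combination` with explicit certificates.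

Also: points with `x`-coordinate in a finite set form a finite set, an elliptic curve over an
algebraically closed field has infinitely many points, and an additive map on an infinite group
vanishing off a finite set is zero.
-/

set_option autoImplicit false

namespace Fermat.Agent.S58.FrobSmall

open WeierstrassCurve WeierstrassCurve.Affine

section Line

variable {K : Type*} [Field K] [DecidableEq K] (W : Affine K)

/-- Chord step: `L` is the slope of the chord through `(x₁, y₁)` and `(x₂, y₂)`, `x₁ ≠ x₂`. -/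
theorem add_some_of_line {x₁ y₁ x₂ y₂ : K} (h₁ : W.Nonsingular x₁ y₁) (h₂ : W.Nonsingular x₂ y₂)
    (hx : x₁ ≠ x₂) (L x₃ y₃ : K) (hL : L * (x₁ - x₂) = y₁ - y₂)
    (hX : x₃ = L ^ 2 + W.a₁ * L - W.a₂ - x₁ - x₂)
    (hY : y₃ = -(L * (x₃ - x₁) + y₁) - W.a₁ * x₃ - W.a₃) :
    ∃ h₃ : W.Nonsingular x₃ y₃,
      Point.some x₁ y₁ h₁ + Point.some x₂ y₂ h₂ = Point.some x₃ y₃ h₃ := by
  have hxy : ¬(x₁ = x₂ ∧ y₁ = W.negY x₂ y₂) := fun h => hx h.1
  have hs : W.slope x₁ x₂ y₁ y₂ = L := by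
    rw [slope_of_X_ne hx, div_eq_iff (sub_ne_zero.mpr hx)]; exact hL.symm
  have e1 : W.addX x₁ x₂ (W.slope x₁ x₂ y₁ y₂) = x₃ := by
    rw [hs, hX]; rfl
  have e2 : W.addY x₁ x₂ y₁ (W.slope x₁ x₂ y₁ y₂) = y₃ := by
    have e1' : W.addX x₁ x₂ L = x₃ := by rw [← hs]; exact e1
    rw [hs, hY, addY, negAddY, negY, e1']
  have hn := nonsingular_add h₁ h₂ hxy
  rw [e1, e2] at hn
  refine ⟨hn, ?_⟩
  rw [Point.add_some hxy]
  simp only [Point.some.injEq]
  exact ⟨e1, e2⟩

/-- Tangent step: `L` is the slope of the tangent at `(x₁, y₁)`, where `d = y₁ - negY` is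
invertible. -/
theorem dbl_some_of_line {x₁ y₁ : K} (h₁ : W.Nonsingular x₁ y₁)
    (hy : 2 * y₁ + W.a₁ * x₁ + W.a₃ ≠ 0) (L x₃ y₃ : K)
    (hL : L * (2 * y₁ + W.a₁ * x₁ + W.a₃) = 3 * x₁ ^ 2 + 2 * W.a₂ * x₁ + W.a₄ - W.a₁ * y₁)
    (hX : x₃ = L ^ 2 + W.a₁ * L - W.a₂ - x₁ - x₁)
    (hY : y₃ = -(L * (x₃ - x₁) + y₁) - W.a₁ * x₃ - W.a₃) :
    ∃ h₃ : W.Nonsingular x₃ y₃,
      Point.some x₁ y₁ h₁ + Point.some x₁ y₁ h₁ = Point.some x₃ y₃ h₃ := by
  have hd : y₁ - W.negY x₁ y₁ = 2 * y₁ + W.a₁ * x₁ + W.a₃ := by rw [negY]; ring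
  have hy' : y₁ ≠ W.negY x₁ y₁ := by
    intro h
    apply hy
    rw [← hd, sub_eq_zero]
    exact h
  have hxy : ¬(x₁ = x₁ ∧ y₁ = W.negY x₁ y₁) := fun h => hy' h.2
  have hs : W.slope x₁ x₁ y₁ y₁ = L := by
    rw [slope_of_Y_ne rfl hy', div_eq_iff (sub_ne_zero.mpr hy'), hd]; exact hL.symm
  have e1 : W.addX x₁ x₁ (W.slope x₁ x₁ y₁ y₁) = x₃ := by
    rw [hs, hX]; rfl
  have e2 : W.addY x₁ x₁ y₁ (W.slope x₁ x₁ y₁ y₁) = y₃ := by
    have e1' : W.addX x₁ x₁ L = x₃ := by rw [← hs]; exact e1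
    rw [hs, hY, addY, negAddY, negY, e1']
  have hn := nonsingular_add h₁ h₁ hxy
  rw [e1, e2] at hn
  refine ⟨hn, ?_⟩
  rw [Point.add_some hxy]
  simp only [Point.some.injEq]
  exact ⟨e1, e2⟩

omit [DecidableEq K] in
/-- Negation of a point with explicit coordinates. -/
theorem neg_some_of_eq {x y : K} (h : W.Nonsingular x y) (y' : K)
    (hy : y' = -y - W.a₁ * x - W.a₃) :
    ∃ h' : W.Nonsingular x y', -Point.some x y h = Point.some x y' h' := by
  subst hy
  exact ⟨(nonsingular_neg ..).mpr h, rfl⟩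

omit [DecidableEq K] in
/-- Two points with the same explicit coordinates are equal. -/
theorem some_eq_some {x y x' y' : K} (h : W.Nonsingular x y) (h' : W.Nonsingular x' y')
    (hx : x = x') (hy : y = y') : Point.some x y h = Point.some x' y' h' := by
  subst hx; subst hy; rfl

omit [DecidableEq K] in
/-- An inverse certificate gives non-vanishing. -/
theorem ne_zero_of_mul_eq_one {a b : K} (h : a * b = 1) : a ≠ 0 := by
  rintro rfl
  rw [zero_mul] at h
  exact zero_ne_one h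

omit [DecidableEq K] in
/-- An inverse certificate for the difference gives distinctness. -/
theorem ne_of_sub_mul_eq_one {a a' b : K} (h : (a - a') * b = 1) : a ≠ a' := by
  rintro rfl
  rw [sub_self, zero_mul] at h
  exact zero_ne_one h


/-! ### Versions with explicit coefficients -/

/-- The Weierstrass curve with the given coefficients. -/
abbrev mkC (a₁ a₂ a₃ a₄ a₆ : K) : Affine K := ⟨a₁, a₂, a₃, a₄, a₆⟩

omit [DecidableEq K] in
theorem equation_mk (a₁ a₂ a₃ a₄ a₆ : K) {x y : K} (h : (mkC a₁ a₂ a₃ a₄ a₆).Nonsingular x y) :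
    y ^ 2 + a₁ * x * y + a₃ * y - (x ^ 3 + a₂ * x ^ 2 + a₄ * x + a₆) = 0 := by
  have := (Affine.equation_iff _ _).mp h.1
  rw [sub_eq_zero]
  exact this

theorem add_some_of_line' (a₁ a₂ a₃ a₄ a₆ : K) {x₁ y₁ x₂ y₂ : K}
    (h₁ : (mkC a₁ a₂ a₃ a₄ a₆).Nonsingular x₁ y₁) (h₂ : (mkC a₁ a₂ a₃ a₄ a₆).Nonsingular x₂ y₂)
    (hx : x₁ ≠ x₂) (L x₃ y₃ : K) (hL : L * (x₁ - x₂) = y₁ - y₂)
    (hX : x₃ = L ^ 2 + a₁ * L - a₂ - x₁ - x₂)
    (hY : y₃ = -(L * (x₃ - x₁) + y₁) - a₁ * x₃ - a₃) :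
    ∃ h₃ : (mkC a₁ a₂ a₃ a₄ a₆).Nonsingular x₃ y₃,
      Point.some x₁ y₁ h₁ + Point.some x₂ y₂ h₂ = Point.some x₃ y₃ h₃ :=
  add_some_of_line (mkC a₁ a₂ a₃ a₄ a₆) h₁ h₂ hx L x₃ y₃ hL hX hY

theorem dbl_some_of_line' (a₁ a₂ a₃ a₄ a₆ : K) {x₁ y₁ : K}
    (h₁ : (mkC a₁ a₂ a₃ a₄ a₆).Nonsingular x₁ y₁)
    (hy : 2 * y₁ + a₁ * x₁ + a₃ ≠ 0) (L x₃ y₃ : K)
    (hL : L * (2 * y₁ + a₁ * x₁ + a₃) = 3 * x₁ ^ 2 + 2 * a₂ * x₁ + a₄ - a₁ * y₁)
    (hX : x₃ = L ^ 2 + a₁ * L - a₂ - x₁ - x₁)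
    (hY : y₃ = -(L * (x₃ - x₁) + y₁) - a₁ * x₃ - a₃) :
    ∃ h₃ : (mkC a₁ a₂ a₃ a₄ a₆).Nonsingular x₃ y₃,
      Point.some x₁ y₁ h₁ + Point.some x₁ y₁ h₁ = Point.some x₃ y₃ h₃ :=
  dbl_some_of_line (mkC a₁ a₂ a₃ a₄ a₆) h₁ hy L x₃ y₃ hL hX hY

omit [DecidableEq K] in
theorem neg_some_of_eq' (a₁ a₂ a₃ a₄ a₆ : K) {x y : K}
    (h : (mkC a₁ a₂ a₃ a₄ a₆).Nonsingular x y) (y' : K) (hy : y' = -y - a₁ * x - a₃) :
    ∃ h' : (mkC a₁ a₂ a₃ a₄ a₆).Nonsingular x y', -Point.some x y h = Point.some x y' h' :=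
  neg_some_of_eq (mkC a₁ a₂ a₃ a₄ a₆) h y' hy

end Line

section Finite

variable {F : Type*} [Field F] (E : Affine F)

/-- The coordinates of a point. -/
def xyCoords : E.Point → Option (F × F)
  | .zero => none
  | .some x y _ => some (x, y)

theorem xyCoords_injective : Function.Injective (xyCoords E) := by
  rintro (_ | ⟨x, y, h⟩) (_ | ⟨x', y', h'⟩) e
  · rfl
  · simp [xyCoords] at e
  · simp [xyCoords] at e
  · simp only [xyCoords, Option.some.injEq, Prod.mk.injEq] at e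
    obtain ⟨rfl, rfl⟩ := e
    rfl

/-- A set of points whose `x`-coordinates lie in a finite set is finite. -/
theorem finite_of_xCoord_mem {T : Set F} (hT : T.Finite) (s : Set E.Point)
    (hs : ∀ (x y : F) (h : E.Nonsingular x y), Point.some x y h ∈ s → x ∈ T) : s.Finite := by
  classical
  have hfib : ∀ x : F, {y : F | E.Equation x y}.Finite := by
    intro x
    by_cases hne : ∃ y₀, E.Equation x y₀
    · obtain ⟨y₀, h₀⟩ := hne
      refine (Set.toFinite ({y₀, E.negY x y₀} : Set F)).subset (fun y hy => ?_)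
      rcases Y_eq_of_X_eq hy h₀ rfl with h | h
      · exact Or.inl h
      · exact Or.inr h
    · have : {y : F | E.Equation x y} = ∅ := by
        ext y
        simp only [Set.mem_ofPred_eq, Set.mem_empty_iff_false, iff_false]
        exact fun hy => hne ⟨y, hy⟩
      rw [this]
      exact Set.finite_empty
  have hZ : (⋃ x ∈ T, (fun y => (x, y)) '' {y : F | E.Equation x y}).Finite :=
    hT.biUnion (fun x _ => Set.Finite.image _ (hfib x))
  refine (((hZ.image some).insert none).preimage (xyCoords_injective E).injOn).subset ?_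
  rintro (_ | ⟨x, y, h⟩) hP
  · exact Set.mem_insert _ _
  · have hx := hs x y h hP
    refine Set.mem_insert_of_mem _ ⟨(x, y), ?_, rfl⟩
    exact Set.mem_biUnion hx ⟨y, h.1, rfl⟩

/-- An elliptic curve over an algebraically closed field has infinitely many points. -/
theorem infinite_point_of_isAlgClosed [IsAlgClosed F] (hΔ : E.Δ ≠ 0) : Infinite E.Point := by
  have hy : ∀ x : F, ∃ y : F, E.Equation x y := by
    intro x
    have hdeg : (Polynomial.X ^ 2 + Polynomial.C (E.a₁ * x + E.a₃) * Polynomial.X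
        - Polynomial.C (x ^ 3 + E.a₂ * x ^ 2 + E.a₄ * x + E.a₆) : Polynomial F).degree ≠ 0 := by
      have h2 : (Polynomial.X ^ 2 + Polynomial.C (E.a₁ * x + E.a₃) * Polynomial.X
        - Polynomial.C (x ^ 3 + E.a₂ * x ^ 2 + E.a₄ * x + E.a₆) : Polynomial F).degree = 2 := by
        compute_degree!
      rw [h2]; norm_num
    obtain ⟨y, hy⟩ := IsAlgClosed.exists_root _ hdeg
    refine ⟨y, ?_⟩
    rw [Affine.equation_iff]
    simp only [Polynomial.IsRoot, Polynomial.eval_sub, Polynomial.eval_add, Polynomial.eval_pow,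
      Polynomial.eval_X, Polynomial.eval_mul, Polynomial.eval_C] at hy
    linear_combination hy
  choose y hy using hy
  have hn : ∀ x, E.Nonsingular x (y x) := fun x =>
    (Affine.equation_iff_nonsingular_of_Δ_ne_zero hΔ).mp (hy x)
  refine Infinite.of_injective (fun x => Point.some x (y x) (hn x)) ?_
  intro x x' h
  simp only [Point.some.injEq] at h
  exact h.1

end Finite

/-- An additive map on an infinite group which vanishes off a finite set vanishes. -/
theorem eq_zero_of_finite_support' {G H : Type*} [AddGroup G] [Infinite G] [AddGroup H]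
    (Ψ : G →+ H) (hfin : {P : G | Ψ P ≠ 0}.Finite) (S : G) : Ψ S = 0 := by
  have h2 : {P : G | Ψ (S + P) ≠ 0}.Finite :=
    hfin.preimage (f := fun P => S + P) (add_right_injective S).injOn
  obtain ⟨P, hP⟩ := ((hfin.union h2).infinite_compl).nonempty
  simp only [Set.mem_compl_iff, Set.mem_union, Set.mem_ofPred_eq, not_or, not_not] at hP
  have := hP.2
  rw [map_add, hP.1, add_zero] at this
  exact this

section Fin

variable {G : Type*} [AddCommGroup G] (A B C : G)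

theorem fin_2_0 (h : C + C = -A) : A - (0 : ℤ) • B + (2 : ℤ) • C = 0 := by
  have e : A - (0 : ℤ) • B + (2 : ℤ) • C = A + (C + C) := by
    rw [zero_smul, sub_zero, two_smul]
  rw [e, h, add_neg_cancel]

theorem fin_2_m1 (h : A + B = -(C + C)) : A - (-1 : ℤ) • B + (2 : ℤ) • C = 0 := by
  have e : A - (-1 : ℤ) • B + (2 : ℤ) • C = (A + B) + (C + C) := by abel
  rw [e, h, neg_add_cancel]

theorem fin_2_1 (h : A + -B = -(C + C)) : A - (1 : ℤ) • B + (2 : ℤ) • C = 0 := by
  have e : A - (1 : ℤ) • B + (2 : ℤ) • C = (A + -B) + (C + C) := by abel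
  rw [e, h, neg_add_cancel]

theorem fin_2_m2 (h : (B + C) + (B + C) = -A) : A - (-2 : ℤ) • B + (2 : ℤ) • C = 0 := by
  have e : A - (-2 : ℤ) • B + (2 : ℤ) • C = A + ((B + C) + (B + C)) := by abel
  rw [e, h, add_neg_cancel]

theorem fin_2_2 (h : (B + -C) + (B + -C) = A) : A - (2 : ℤ) • B + (2 : ℤ) • C = 0 := by
  have e : A - (2 : ℤ) • B + (2 : ℤ) • C = A - ((B + -C) + (B + -C)) := by abel
  rw [e, h, sub_self]

theorem fin_3_1 (h : A + -B = -((C + C) + C)) : A - (1 : ℤ) • B + (3 : ℤ) • C = 0 := by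
  have e : A - (1 : ℤ) • B + (3 : ℤ) • C = (A + -B) + ((C + C) + C) := by abel
  rw [e, h, neg_add_cancel]

theorem fin_3_m1 (h : A + B = -((C + C) + C)) : A - (-1 : ℤ) • B + (3 : ℤ) • C = 0 := by
  have e : A - (-1 : ℤ) • B + (3 : ℤ) • C = (A + B) + ((C + C) + C) := by abel
  rw [e, h, neg_add_cancel]

theorem fin_3_2 (h : (B + -C) + (B + -C) = A + C) : A - (2 : ℤ) • B + (3 : ℤ) • C = 0 := by
  have e : A - (2 : ℤ) • B + (3 : ℤ) • C = (A + C) - ((B + -C) + (B + -C)) := by abel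
  rw [e, h, sub_self]

theorem fin_3_m2 (h : A + C = -((B + C) + (B + C))) : A - (-2 : ℤ) • B + (3 : ℤ) • C = 0 := by
  have e : A - (-2 : ℤ) • B + (3 : ℤ) • C = (A + C) + ((B + C) + (B + C)) := by abel
  rw [e, h, neg_add_cancel]

end Fin

end Fermat.Agent.S58.FrobSmall
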