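import Fermat.Agent.S58.FrobSmall.Gen2
import Fermat.Agent.S58.FrobSmall.Gen3

/-!
# S58, brick (B2) FROB23: the Frobenius relation for every elliptic curve over `F_2`, `F_3`

`frobRel_small` : for `ℓ ∈ {2, 3}`, `K` algebraically closed over `ZMod ℓ` and every Weierstrass
curve `E` over `ZMod ℓ` with `Δ ≠ 0`:  `φ² - a φ + ℓ = 0` on `E(K)`, where `φ` is the Frobenius
and `a = E.traceOfFrobenius` (the Prelude's trace, `ℓ + 1 - #E(F_ℓ)`).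

Proof: a change of variables over `ZMod ℓ` with `u = 1` brings `E` to one of finitely many
normal forms (`exists_nf2`, `exists_nf3`, by `decide`); the relation and the trace are transported
along it (`frobRelAt_trace_of_rel`); for the normal forms the relation is `Gen2`/`Gen3`
(explicit generic identity) or, for the short forms in characteristic 3, brick (Tr) of S52.
-/

set_option autoImplicit false

namespace Fermat.Agent.S58.FrobSmall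

open WeierstrassCurve WeierstrassCurve.Affine Fermat.Agent.S05.VarChange Fermat.Agent.S52.Tr

section Transport

variable (ℓ : ℕ) [Fact ℓ.Prime] (K : Type) [Field K] [DecidableEq K] [Algebra (ZMod ℓ) K]

theorem frobRelAt_trace_of_rel {E E' : WeierstrassCurve (ZMod ℓ)} {u r s t : ZMod ℓ}
    (H : Rel E.toAffine E'.toAffine u r s t) (h : FrobRelAt ℓ K E' E'.traceOfFrobenius) :
    FrobRelAt ℓ K E E.traceOfFrobenius := by
  rw [trace_eq_of_rel H]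
  exact frobRelAt_of_rel ℓ K H _ h

end Transport

/-! ### Characteristic 2 -/

/-- The normal forms over `F_2`. -/
abbrev IsNF2 (W : WeierstrassCurve (ZMod 2)) : Prop :=
  (W.a₁ = 1 ∧ W.a₂ = 0 ∧ W.a₃ = 0 ∧ W.a₄ = 0 ∧ W.a₆ = 1) ∨
  (W.a₁ = 1 ∧ W.a₂ = 1 ∧ W.a₃ = 0 ∧ W.a₄ = 0 ∧ W.a₆ = 1) ∨
  (W.a₁ = 0 ∧ W.a₂ = 0 ∧ W.a₃ = 1 ∧ W.a₄ = 0 ∧ W.a₆ = 0) ∨
  (W.a₁ = 0 ∧ W.a₂ = 0 ∧ W.a₃ = 1 ∧ W.a₄ = 0 ∧ W.a₆ = 1) ∨
  (W.a₁ = 0 ∧ W.a₂ = 0 ∧ W.a₃ = 1 ∧ W.a₄ = 1 ∧ W.a₆ = 0) ∨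
  (W.a₁ = 0 ∧ W.a₂ = 0 ∧ W.a₃ = 1 ∧ W.a₄ = 1 ∧ W.a₆ = 1)

theorem exists_nf2 : ∀ a₁ a₂ a₃ a₄ a₆ : ZMod 2, (mkC a₁ a₂ a₃ a₄ a₆).Δ ≠ 0 →
    ∃ r s t : ZMod 2, IsNF2 (relImage a₁ a₂ a₃ a₄ a₆ r s t) := by decide

section Two

variable (K : Type) [Field K] [DecidableEq K] [Algebra (ZMod 2) K] [IsAlgClosed K]

theorem frobRelAt_nf2 (W : WeierstrassCurve (ZMod 2)) (h : IsNF2 W) :
    FrobRelAt 2 K W W.traceOfFrobenius := by
  rcases h with ⟨h1, h2, h3, h4, h6⟩ | ⟨h1, h2, h3, h4, h6⟩ | ⟨h1, h2, h3, h4, h6⟩ |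
    ⟨h1, h2, h3, h4, h6⟩ | ⟨h1, h2, h3, h4, h6⟩ | ⟨h1, h2, h3, h4, h6⟩
  · have e : W = mkC (1 : ZMod 2) 0 0 0 1 := by ext <;> assumption
    rw [e, trace_c2a]; exact frobRelAt_c2a K
  · have e : W = mkC (1 : ZMod 2) 1 0 0 1 := by ext <;> assumption
    rw [e, trace_c2b]; exact frobRelAt_c2b K
  · have e : W = mkC (0 : ZMod 2) 0 1 0 0 := by ext <;> assumption
    rw [e, trace_c2c]; exact frobRelAt_c2c K
  · have e : W = mkC (0 : ZMod 2) 0 1 0 1 := by ext <;> assumption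
    rw [e, trace_c2d]; exact frobRelAt_c2d K
  · have e : W = mkC (0 : ZMod 2) 0 1 1 0 := by ext <;> assumption
    rw [e, trace_c2e]; exact frobRelAt_c2e K
  · have e : W = mkC (0 : ZMod 2) 0 1 1 1 := by ext <;> assumption
    rw [e, trace_c2f]; exact frobRelAt_c2f K

/-- The Frobenius relation for every elliptic curve over `F_2`. -/
theorem frobRel_two (E : WeierstrassCurve (ZMod 2)) (hΔ : E.Δ ≠ 0) :
    FrobRelAt 2 K E E.traceOfFrobenius := by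
  obtain ⟨a₁, a₂, a₃, a₄, a₆⟩ := E
  obtain ⟨r, s, t, hnf⟩ := exists_nf2 a₁ a₂ a₃ a₄ a₆ hΔ
  exact frobRelAt_trace_of_rel 2 K (E := mkC a₁ a₂ a₃ a₄ a₆) (rel_relImage a₁ a₂ a₃ a₄ a₆ r s t)
    (frobRelAt_nf2 K _ hnf)

end Two

/-! ### Characteristic 3 -/

/-- The normal forms over `F_3`: short curves, and `y² = x³ + a₂ x² + a₆` with `a₂ a₆ ≠ 0`. -/
abbrev IsNF3 (W : WeierstrassCurve (ZMod 3)) : Prop :=
  W.a₁ = 0 ∧ W.a₃ = 0 ∧ ((W.a₂ = 0 ∧ 4 * W.a₄ ^ 3 + 27 * W.a₆ ^ 2 ≠ 0) ∨ (W.a₄ = 0 ∧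
    ((W.a₂ = 1 ∧ W.a₆ = 1) ∨ (W.a₂ = 1 ∧ W.a₆ = 2) ∨ (W.a₂ = 2 ∧ W.a₆ = 1) ∨
      (W.a₂ = 2 ∧ W.a₆ = 2))))

theorem exists_nf3 : ∀ a₁ a₂ a₃ a₄ a₆ : ZMod 3, (mkC a₁ a₂ a₃ a₄ a₆).Δ ≠ 0 →
    ∃ r : ZMod 3, IsNF3 (relImage a₁ a₂ a₃ a₄ a₆ r a₁ (a₃ + r * a₁)) := by decide

section Three

variable (K : Type) [Field K] [DecidableEq K] [Algebra (ZMod 3) K] [IsAlgClosed K]

theorem frobRelAt_nf3 (W : WeierstrassCurve (ZMod 3)) (h : IsNF3 W) :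
    FrobRelAt 3 K W W.traceOfFrobenius := by
  obtain ⟨h1, h3, ⟨h2, hd⟩ | ⟨h4, hc⟩⟩ := h
  · have e : W = shortCurve W.a₄ W.a₆ := by
      ext
      · exact h1
      · exact h2
      · exact h3
      · rfl
      · rfl
    have key := SpecFinal.trStatement 3 K (by norm_num) W.a₄ W.a₆ hd
    rw [← e] at key
    exact key
  · rcases hc with ⟨h2, h6⟩ | ⟨h2, h6⟩ | ⟨h2, h6⟩ | ⟨h2, h6⟩
    · have e : W = mkC (0 : ZMod 3) 1 0 0 1 := by ext <;> assumption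
      rw [e, trace_c3a]; exact frobRelAt_c3a K
    · have e : W = mkC (0 : ZMod 3) 1 0 0 2 := by ext <;> assumption
      rw [e, trace_c3b]; exact frobRelAt_c3b K
    · have e : W = mkC (0 : ZMod 3) 2 0 0 1 := by ext <;> assumption
      rw [e, trace_c3c]; exact frobRelAt_c3c K
    · have e : W = mkC (0 : ZMod 3) 2 0 0 2 := by ext <;> assumption
      rw [e, trace_c3d]; exact frobRelAt_c3d K

/-- The Frobenius relation for every elliptic curve over `F_3`. -/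
theorem frobRel_three (E : WeierstrassCurve (ZMod 3)) (hΔ : E.Δ ≠ 0) :
    FrobRelAt 3 K E E.traceOfFrobenius := by
  obtain ⟨a₁, a₂, a₃, a₄, a₆⟩ := E
  obtain ⟨r, hnf⟩ := exists_nf3 a₁ a₂ a₃ a₄ a₆ hΔ
  exact frobRelAt_trace_of_rel 3 K (E := mkC a₁ a₂ a₃ a₄ a₆)
    (rel_relImage a₁ a₂ a₃ a₄ a₆ r a₁ (a₃ + r * a₁)) (frobRelAt_nf3 K _ hnf)

end Three

/-- **The Frobenius relation in characteristics 2 and 3**: `φ² - a φ + ℓ = 0` on `E(K)` for every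
Weierstrass curve `E` over `ZMod ℓ` with nonzero discriminant, `K` algebraically closed. -/
theorem frobRel_small (ℓ : ℕ) [Fact ℓ.Prime] (h23 : ℓ = 2 ∨ ℓ = 3) (K : Type) [Field K]
    [DecidableEq K] [Algebra (ZMod ℓ) K] [IsAlgClosed K] (E : WeierstrassCurve (ZMod ℓ))
    (hΔ : E.Δ ≠ 0) : FrobRelAt ℓ K E E.traceOfFrobenius := by
  rcases h23 with rfl | rfl
  · exact frobRel_two K E hΔ
  · exact frobRel_three K E hΔ

end Fermat.Agent.S58.FrobSmall
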